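import Fermat.Agent.S17.TP.PLIdent

/-!
# S17 / TP / PL4, PL5 : dimension bounds for arbitrary nonzero Pluecker-type vectors (task S17-PL3)
-/

set_option autoImplicit false

noncomputable section

namespace Fermat.Agent.S17.TP

open Fermat.Agent.S17 Matrix Module

section Ring
variable {R : Type} [CommRing R] {n d : ℕ}

theorem kerVecP_apply_emb (p : (Fin n ↪o Fin d) → R) (T : Fin (n + 1) ↪o Fin d)
    (i : Fin (n + 1)) : kerVecP p T (T i) = (-1) ^ (i : ℕ) * p (dropEmb T i) := by
  unfold kerVecP
  rw [Finset.sum_eq_single i]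
  · simp
  · intro b _ hb
    rw [if_neg]
    intro h
    exact hb (T.injective h)
  · intro h
    exact absurd (Finset.mem_univ _) h

theorem kerVecP_apply_of_notMem (p : (Fin n ↪o Fin d) → R) (T : Fin (n + 1) ↪o Fin d) (c : Fin d)
    (hc : c ∉ Set.range T) : kerVecP p T c = 0 := by
  unfold kerVecP
  refine Finset.sum_eq_zero fun i _ => ?_
  rw [if_neg]
  intro h
  exact hc ⟨i, h⟩

theorem range_eq_insert_dropEmb (T : Fin (n + 1) ↪o Fin d) (i : Fin (n + 1)) :
    Set.range T = insert (T i) (Set.range (dropEmb T i)) := by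
  ext y
  constructor
  · rintro ⟨j, rfl⟩
    rcases eq_or_ne j i with rfl | hj
    · exact Or.inl rfl
    · obtain ⟨k, rfl⟩ := Fin.exists_succAbove_eq hj
      exact Or.inr ⟨k, rfl⟩
  · rintro (rfl | ⟨k, rfl⟩)
    · exact ⟨i, rfl⟩
    · exact ⟨i.succAbove k, rfl⟩

theorem apply_notMem_range_dropEmb (T : Fin (n + 1) ↪o Fin d) (i : Fin (n + 1)) :
    T i ∉ Set.range (dropEmb T i) := by
  rintro ⟨k, hk⟩
  exact Fin.succAbove_ne i k (T.injective hk)

/-- if `x` vanishes outside the range of `T₀`, only one term of the contraction survives -/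
theorem contr_dropEmb_of_support (p' : (Fin (n + 1) ↪o Fin d) → R) (x : Fin d → R)
    (T₀ : Fin (n + 1) ↪o Fin d) (hx : ∀ c, c ∉ Set.range T₀ → x c = 0) (i : Fin (n + 1)) :
    contr p' x (dropEmb T₀ i) = (-1) ^ (i : ℕ) * x (T₀ i) * p' T₀ := by
  classical
  have key : ∀ (T : Fin (n + 1) ↪o Fin d) (i' : Fin (n + 1)), dropEmb T i' = dropEmb T₀ i →
      x (T i') ≠ 0 → T = T₀ ∧ i' = i := by
    intro T i' hd hne
    have hmem : T i' ∈ Set.range T₀ := by
      by_contra hc
      exact hne (hx _ hc)
    have h1 : T i' = T₀ i := by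
      rw [range_eq_insert_dropEmb T₀ i] at hmem
      rcases hmem with h | h
      · exact h
      · rw [← hd] at h
        exact absurd h (apply_notMem_range_dropEmb T i')
    have hT : T = T₀ := by
      apply orderEmb_eq_of_range_eq
      rw [range_eq_insert_dropEmb T i', range_eq_insert_dropEmb T₀ i, hd, h1]
    subst hT
    exact ⟨rfl, T.injective h1⟩
  unfold contr
  rw [Finset.sum_eq_single T₀, Finset.sum_eq_single i]
  · simp
  · intro i' _ hi'
    split_ifs with h
    · by_cases hne : x (T₀ i') = 0
      · rw [hne]; ring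
      · exact absurd (key T₀ i' h hne).2 hi'
    · rfl
  · intro h
    exact absurd (Finset.mem_univ _) h
  · intro T _ hT
    refine Finset.sum_eq_zero fun i' _ => ?_
    split_ifs with h
    · by_cases hne : x (T i') = 0
      · rw [hne]; ring
      · exact absurd (key T i' h hne).1 hT
    · rfl
  · intro h
    exact absurd (Finset.mem_univ _) h

end Ring

section Field
variable {K : Type} [Field K] {n d : ℕ}

theorem card_compl_range_orderEmb {m : ℕ} (S : Fin m ↪o Fin d) :
    Nat.card {c : Fin d // c ∉ Set.range S} + m = d := by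
  classical
  have h1 : Nat.card {c : Fin d // c ∈ Set.range S} = m := by
    have := Nat.card_congr (Equiv.ofInjective S S.injective)
    rw [Nat.card_eq_fintype_card, Fintype.card_fin] at this
    exact this.symm
  have h2 : Nat.card {c : Fin d // c ∈ Set.range S} + Nat.card {c : Fin d // c ∉ Set.range S}
      = d := by
    have := Nat.card_congr (Equiv.sumCompl (fun c : Fin d => c ∈ Set.range S))
    rw [Nat.card_sum, Nat.card_eq_fintype_card (α := Fin d), Fintype.card_fin] at this
    exact this
  omega

/-- PL4. -/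
theorem le_finrank_span_kerVecP (p : (Fin n ↪o Fin d) → K) (hp : p ≠ 0) :
    d ≤ finrank K (Submodule.span K (Set.range (kerVecP p))) + n := by
  classical
  obtain ⟨S0, hS0⟩ := Function.ne_iff.mp hp
  have hex : ∀ c : {c : Fin d // c ∉ Set.range S0},
      ∃ (T : Fin (n + 1) ↪o Fin d) (i : Fin (n + 1)), T i = c.1 ∧
        (fun j : Fin n => T (i.succAbove j)) = S0 ∧ Set.range T = insert c.1 (Set.range S0) :=
    fun c => exists_orderEmbedding_insert S0 c.1 c.2
  choose T i hTi hTS hTr using hex
  have hval : ∀ c, kerVecP p (T c) c.1 ≠ 0 := by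
    intro c
    have hd : dropEmb (T c) (i c) = S0 := DFunLike.coe_injective (hTS c)
    rw [← hTi c, kerVecP_apply_emb, hd]
    exact mul_ne_zero (pow_ne_zero _ (neg_ne_zero.2 one_ne_zero)) hS0
  have hoff : ∀ c c' : {c : Fin d // c ∉ Set.range S0}, c ≠ c' → kerVecP p (T c) c'.1 = 0 := by
    intro c c' hcc
    apply kerVecP_apply_of_notMem
    rw [hTr c]
    rintro (h | h)
    · exact hcc (Subtype.ext h.symm)
    · exact c'.2 h
  have hli : LinearIndependent K (fun c : {c : Fin d // c ∉ Set.range S0} => kerVecP p (T c)) := by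
    rw [Fintype.linearIndependent_iff]
    intro g hg c'
    have h1 := congrFun hg c'.1
    rw [Finset.sum_apply, Finset.sum_eq_single c'] at h1
    · simpa [hval c'] using h1
    · intro c _ hc
      rw [Pi.smul_apply, hoff c c' hc, smul_zero]
    · intro h
      exact absurd (Finset.mem_univ _) h
  have h2 := finrank_span_eq_card hli
  have h3 : Submodule.span K (Set.range fun c : {c : Fin d // c ∉ Set.range S0} => kerVecP p (T c))
      ≤ Submodule.span K (Set.range (kerVecP p)) := by
    apply Submodule.span_mono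
    rintro _ ⟨c, rfl⟩
    exact ⟨T c, rfl⟩
  have h4 := Submodule.finrank_mono h3
  have h5 := card_compl_range_orderEmb S0
  rw [Nat.card_eq_fintype_card] at h5
  omega

/-- PL5. -/
theorem finrank_contr_eq_zero_le (p' : (Fin (n + 1) ↪o Fin d) → K) (hp : p' ≠ 0)
    (U : Submodule K (Fin d → K)) (hU : ∀ x ∈ U, contr p' x = 0) :
    finrank K U + (n + 1) ≤ d := by
  classical
  obtain ⟨T0, hT0⟩ := Function.ne_iff.mp hp
  -- restriction to the complement of the range of `T0`
  let π : (Fin d → K) →ₗ[K] ({c : Fin d // c ∉ Set.range T0} → K) :=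
    LinearMap.funLeft K K (fun c : {c : Fin d // c ∉ Set.range T0} => c.1)
  have hinj : Function.Injective (π.domRestrict U) := by
    rw [← LinearMap.ker_eq_bot, LinearMap.ker_eq_bot']
    rintro ⟨x, hxU⟩ hx
    have hx0 : ∀ c, c ∉ Set.range T0 → x c = 0 := fun c hc => congrFun hx ⟨c, hc⟩
    have hx1 : ∀ i, x (T0 i) = 0 := by
      intro i
      have h1 := contr_dropEmb_of_support p' x T0 hx0 i
      rw [hU x hxU] at h1
      have h2 : (-1 : K) ^ (i : ℕ) ≠ 0 := pow_ne_zero _ (neg_ne_zero.2 one_ne_zero)
      have h3 : (-1 : K) ^ (i : ℕ) * x (T0 i) * p' T0 = 0 := h1.symm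
      rcases mul_eq_zero.mp h3 with h | h
      · rcases mul_eq_zero.mp h with h | h
        · exact absurd h h2
        · exact h
      · exact absurd h hT0
    apply Subtype.ext
    funext c
    by_cases hc : c ∈ Set.range T0
    · obtain ⟨i, rfl⟩ := hc
      exact hx1 i
    · exact hx0 c hc
  have h1 := LinearMap.finrank_le_finrank_of_injective hinj
  rw [Module.finrank_fintype_fun_eq_card] at h1
  have h5 := card_compl_range_orderEmb T0
  rw [Nat.card_eq_fintype_card] at h5
  omega

end Field

end Fermat.Agent.S17.TP
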