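import Fermat.Agent.S17.TP.PLCut
import Fermat.Agent.S17.Tools.MinorsCompl

/-!
# S17 / TP / PL5-PL6 : the height of a subspace is well defined; primal = dual; lines, hyperplanes
-/

set_option autoImplicit false

noncomputable section

namespace Fermat.Agent.S17.TP

open Fermat.Agent.S17 Matrix Module

variable {K : Type} [Field K] {d : ℕ}

theorem h_minors_eq_of_isCut (H : HeightFn K) {r r' : ℕ} {A : Matrix (Fin r) (Fin d) K}
    {A' : Matrix (Fin r') (Fin d) K} {U : Submodule K (Fin d → K)} (h : IsCut A U)
    (h' : IsCut A' U) : H.h (minors A') = H.h (minors A) := by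
  have e : r = r' := by
    have h1 := h.finrank_add
    have h2 := h'.finrank_add
    omega
  subst e
  obtain ⟨c, hc, hm⟩ := h.exists_smul h'
  rw [hm, H.smul _ hc]

theorem Hsub_eq (H : HeightFn K) {r : ℕ} {A : Matrix (Fin r) (Fin d) K}
    {U : Submodule K (Fin d → K)} (h : IsCut A U) : Hsub H U = H.h (minors A) := by
  have hex : ∃ (r : ℕ) (A : Matrix (Fin r) (Fin d) K), IsCut A U := ⟨r, A, h⟩
  unfold Hsub
  rw [dif_pos hex]
  exact h_minors_eq_of_isCut H h hex.choose_spec.choose_spec

theorem Hsub_nonneg (H : HeightFn K) (U : Submodule K (Fin d → K)) : 0 ≤ Hsub H U := by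
  obtain ⟨r, A, h⟩ := exists_isCut U
  rw [Hsub_eq H h]
  exact H.nonneg _

theorem h_const_one (H : HeightFn K) {ι : Type} [Finite ι] : H.h (fun _ : ι => (1 : K)) = 0 := by
  have := H.pow (fun _ : ι => (1 : K)) 0
  simpa using this

theorem Hsub_top (H : HeightFn K) : Hsub H (⊤ : Submodule K (Fin d → K)) = 0 := by
  have hcut : IsCut (0 : Matrix (Fin 0) (Fin d) K) ⊤ := by
    refine ⟨linearIndependent_empty_type, ?_⟩
    rw [eq_top_iff]
    intro x _
    rw [LinearMap.mem_ker]
    exact Subsingleton.elim _ _
  rw [Hsub_eq H hcut]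
  have : minors (0 : Matrix (Fin 0) (Fin d) K) = fun _ => 1 := by
    funext S
    rw [minors_apply, Matrix.det_isEmpty]
  rw [this, h_const_one]

/-- primal Pluecker vector (rows of `B` = a basis of `U`) has the same height -/
theorem Hsub_eq_primal (H : HeightFn K) {w : ℕ} (B : Matrix (Fin w) (Fin d) K)
    (hB : LinearIndependent K B.row) :
    Hsub H (Submodule.span K (Set.range B.row)) = H.h (minors B) := by
  obtain ⟨r, A, h⟩ := exists_isCut (Submodule.span K (Set.range B.row))
  rw [Hsub_eq H h]
  have hfr : finrank K (Submodule.span K (Set.range B.row)) = w := by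
    rw [finrank_span_eq_card hB, Fintype.card_fin]
  have hd : r + w = d := by
    have := h.finrank_add
    omega
  have hAB : A * B.transpose = 0 := by
    ext i j
    have hj : B.row j ∈ Submodule.span K (Set.range B.row) := Submodule.subset_span ⟨j, rfl⟩
    have := congrFun ((h.mem_iff _).1 hj) i
    simpa [Matrix.mul_apply, Matrix.mulVec, dotProduct] using this
  have hBc : LinearIndependent K B.transpose.col := by simpa using hB
  obtain ⟨c, ε, hc, hm⟩ := exists_minors_eq_mul_sign_mul_minors_compl hd A B.transpose hAB h.1 hBc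
  rw [Matrix.transpose_transpose] at hm
  have h1 : minors A = c • (fun S => ((ε S : ℤ) : K) * minors B (complEmb hd S)) := by
    funext S
    rw [hm S]
    rfl
  rw [h1, H.smul _ hc]
  have h2 : H.h (fun S => ((ε S : ℤ) : K) * minors B (complEmb hd S))
      = H.h (fun S => minors B (complEmb hd S)) := by
    apply H.sign
    intro S
    rcases Int.units_eq_one_or (ε S) with h | h <;> simp [h]
  rw [h2]
  exact H.comp_equiv (complEmb hd) (minors B)

/-- one-element subsets -/
def emb1Equiv : (Fin 1 ↪o Fin d) ≃ Fin d where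
  toFun S := S 0
  invFun c := OrderEmbedding.ofStrictMono (fun _ => c) (by
    intro a b hab
    exact absurd hab (by rw [Subsingleton.elim a b]; exact lt_irrefl _))
  left_inv S := by
    ext i
    rw [Subsingleton.elim i 0]
    rfl
  right_inv c := rfl

theorem minors_of_row (s : Fin d → K) :
    minors (Matrix.of fun _ : Fin 1 => s) = s ∘ emb1Equiv := by
  funext S
  rw [minors_apply, Matrix.det_fin_one]
  rfl

/-- (N1) -/
theorem Hsub_span_singleton (H : HeightFn K) (s : Fin d → K) (hs : s ≠ 0) :
    Hsub H (K ∙ s) = H.h s := by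
  have hrow : (Matrix.of fun _ : Fin 1 => s).row = fun _ => s := rfl
  have hB : LinearIndependent K (Matrix.of fun _ : Fin 1 => s).row := by
    rw [hrow]
    exact LinearIndependent.of_subsingleton 0 hs
  have hspan : Submodule.span K (Set.range (Matrix.of fun _ : Fin 1 => s).row) = K ∙ s := by
    rw [hrow, Set.range_const]
  rw [← hspan, Hsub_eq_primal H _ hB, minors_of_row]
  exact H.comp_equiv emb1Equiv s

/-- the hyperplane `ker l` -/
theorem Hsub_ker_dotProduct (H : HeightFn K) (l : Fin d → K) (hl : l ≠ 0)
    (U : Submodule K (Fin d → K)) (hU : ∀ x, x ∈ U ↔ l ⬝ᵥ x = 0) : Hsub H U = H.h l := by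
  have hrow : (Matrix.of fun _ : Fin 1 => l).row = fun _ => l := rfl
  have hcut : IsCut (Matrix.of fun _ : Fin 1 => l) U := by
    refine ⟨?_, ?_⟩
    · rw [hrow]
      exact LinearIndependent.of_subsingleton 0 hl
    · ext x
      rw [hU, LinearMap.mem_ker]
      constructor
      · intro h
        exact congrFun h 0
      · intro h
        funext i
        exact h
  rw [Hsub_eq H hcut, minors_of_row]
  exact H.comp_equiv emb1Equiv l

end Fermat.Agent.S17.TP
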