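import Fermat.Agent.S17.TP.PLDefs

/-!
# S17 / TP / PL1-PL3 : Laplace and contraction identities for dual Pluecker vectors
-/

set_option autoImplicit false

noncomputable section

namespace Fermat.Agent.S17.TP

open Fermat.Agent.S17 Matrix

variable {R : Type} [CommRing R] {n d : ℕ}

@[simp] theorem dropEmb_apply (T : Fin (n + 1) ↪o Fin d) (i : Fin (n + 1)) (j : Fin n) :
    dropEmb T i j = T (i.succAbove j) := rfl

theorem kerVec_eq_kerVecP (A : Matrix (Fin n) (Fin d) R) (T : Fin (n + 1) ↪o Fin d) :
    kerVec A T = kerVecP (minors A) T := rfl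

/-- PL2 (Laplace along the top row): flags are a tautology in the dual formalism. -/
theorem minors_consRow (l : Fin d → R) (A : Matrix (Fin n) (Fin d) R) (T : Fin (n + 1) ↪o Fin d) :
    minors (consRow l A) T = l ⬝ᵥ kerVec A T := by
  rw [minors_apply, Matrix.det_succ_row_zero]
  have h2 : l ⬝ᵥ kerVec A T = ∑ i : Fin (n + 1), l (T i) *
      ((-1) ^ (i : ℕ) * (A.submatrix id (fun j : Fin n => T (i.succAbove j))).det) := by
    simp only [dotProduct, kerVec, Finset.mul_sum]
    rw [Finset.sum_comm]
    refine Finset.sum_congr rfl fun i _ => ?_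
    rw [Finset.sum_eq_single (T i)]
    · simp
    · intro b _ hb
      rw [if_neg (fun h => hb h.symm), mul_zero]
    · intro h
      exact absurd (Finset.mem_univ _) h
  rw [h2]
  refine Finset.sum_congr rfl fun i _ => ?_
  have e1 : ((consRow l A).submatrix id T) 0 i = l (T i) := rfl
  have e2 : ((consRow l A).submatrix id T).submatrix Fin.succ i.succAbove
      = A.submatrix id (fun j : Fin n => T (i.succAbove j)) := rfl
  rw [e1, e2]
  ring

/-- the determinant with columns `c, S 0, S 1, ...` -/
theorem det_cons_eq_sign (A' : Matrix (Fin (n + 1)) (Fin d) R) (T : Fin (n + 1) ↪o Fin d)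
    (i : Fin (n + 1)) :
    (A'.submatrix id (Fin.cons (T i) (dropEmb T i) : Fin (n + 1) → Fin d)).det
      = (-1) ^ (i : ℕ) * minors A' T := by
  have h : (Fin.cons (T i) (dropEmb T i) : Fin (n + 1) → Fin d)
      = fun j => T ((Fin.cycleRange i).symm j) := by
    funext j
    refine Fin.cases ?_ (fun k => ?_) j
    · simp
    · simp
  rw [h]
  have h2 : A'.submatrix id (fun j => T ((Fin.cycleRange i).symm j))
      = (A'.submatrix id T).submatrix id (Fin.cycleRange i).symm := rfl
  rw [h2, Matrix.det_permute', Equiv.Perm.sign_symm, Fin.sign_cycleRange, minors_apply]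
  simp

theorem det_cons_eq_zero (A' : Matrix (Fin (n + 1)) (Fin d) R) (S : Fin n ↪o Fin d) (c : Fin d)
    (hc : c ∈ Set.range S) :
    (A'.submatrix id (Fin.cons c S : Fin (n + 1) → Fin d)).det = 0 := by
  obtain ⟨k, rfl⟩ := hc
  refine Matrix.det_zero_of_column_eq (i := 0) (j := k.succ) (Fin.succ_ne_zero k).symm ?_
  intro r
  simp

/-- order embeddings with the same range agree -/
theorem orderEmb_eq_of_range_eq {m : ℕ} (T T' : Fin m ↪o Fin d) (h : Set.range T = Set.range T') :
    T = T' := by
  have := StrictMono.range_inj T.strictMono T'.strictMono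
  exact DFunLike.coe_injective (this.1 h)

theorem sum_pairs_eq_one (S : Fin n ↪o Fin d) (c : Fin d) (hc : c ∉ Set.range S) :
    (∑ T : Fin (n + 1) ↪o Fin d, ∑ i : Fin (n + 1),
      if dropEmb T i = S ∧ T i = c then (1 : R) else 0) = 1 := by
  classical
  obtain ⟨T₀, i₀, h1, h2, h3⟩ := exists_orderEmbedding_insert S c hc
  have hd0 : dropEmb T₀ i₀ = S := DFunLike.coe_injective h2
  have key : ∀ (T : Fin (n + 1) ↪o Fin d) (i : Fin (n + 1)),
      (dropEmb T i = S ∧ T i = c) ↔ (T = T₀ ∧ i = i₀) := by
    intro T i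
    constructor
    · rintro ⟨hd, hi⟩
      have hr : Set.range T = insert c (Set.range S) := by
        ext y
        constructor
        · rintro ⟨j, rfl⟩
          rcases eq_or_ne j i with rfl | hj
          · left; exact hi
          · right
            obtain ⟨k, rfl⟩ := Fin.exists_succAbove_eq hj
            exact ⟨k, by rw [← hd]; rfl⟩
        · rintro (rfl | ⟨k, rfl⟩)
          · exact ⟨i, hi⟩
          · exact ⟨i.succAbove k, by rw [← hd]; rfl⟩
      have hT : T = T₀ := orderEmb_eq_of_range_eq T T₀ (hr.trans h3.symm)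
      subst hT
      exact ⟨rfl, T.injective (hi.trans h1.symm)⟩
    · rintro ⟨rfl, rfl⟩
      exact ⟨hd0, h1⟩
  simp only [key]
  rw [Finset.sum_eq_single T₀]
  · rw [Finset.sum_eq_single i₀]
    · simp
    · intro b _ hb
      simp [hb]
    · intro h
      exact absurd (Finset.mem_univ _) h
  · intro T _ hT
    simp [hT]
  · intro h
    exact absurd (Finset.mem_univ _) h

theorem contr_minors_eq_sum (A' : Matrix (Fin (n + 1)) (Fin d) R) (x : Fin d → R)
    (S : Fin n ↪o Fin d) :
    contr (minors A') x S
      = ∑ c : Fin d, x c * (A'.submatrix id (Fin.cons c S : Fin (n + 1) → Fin d)).det := by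
  classical
  have h1 : contr (minors A') x S = ∑ T : Fin (n + 1) ↪o Fin d, ∑ i : Fin (n + 1), ∑ c : Fin d,
      (x c * (A'.submatrix id (Fin.cons c S : Fin (n + 1) → Fin d)).det) *
        (if dropEmb T i = S ∧ T i = c then (1 : R) else 0) := by
    unfold contr
    refine Finset.sum_congr rfl fun T _ => Finset.sum_congr rfl fun i _ => ?_
    rw [Finset.sum_eq_single (T i)]
    · by_cases h : dropEmb T i = S
      · have := det_cons_eq_sign A' T i
        rw [h] at this
        simp only [h, true_and, if_true, mul_one, this]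
        ring
      · simp [h]
    · intro b _ hb
      rw [if_neg (fun h => hb h.2.symm), mul_zero]
    · intro h
      exact absurd (Finset.mem_univ _) h
  rw [h1]
  have h2 : (∑ T : Fin (n + 1) ↪o Fin d, ∑ i : Fin (n + 1), ∑ c : Fin d,
      (x c * (A'.submatrix id (Fin.cons c S : Fin (n + 1) → Fin d)).det) *
        (if dropEmb T i = S ∧ T i = c then (1 : R) else 0))
      = ∑ c : Fin d, (x c * (A'.submatrix id (Fin.cons c S : Fin (n + 1) → Fin d)).det) *
        (∑ T : Fin (n + 1) ↪o Fin d, ∑ i : Fin (n + 1),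
          if dropEmb T i = S ∧ T i = c then (1 : R) else 0) := by
    simp only [Finset.mul_sum]
    rw [Finset.sum_comm]
    have : ∀ T : Fin (n + 1) ↪o Fin d, (∑ i : Fin (n + 1), ∑ c : Fin d,
        (x c * (A'.submatrix id (Fin.cons c S : Fin (n + 1) → Fin d)).det) *
          (if dropEmb T i = S ∧ T i = c then (1 : R) else 0))
        = ∑ c : Fin d, ∑ i : Fin (n + 1),
        (x c * (A'.submatrix id (Fin.cons c S : Fin (n + 1) → Fin d)).det) *
          (if dropEmb T i = S ∧ T i = c then (1 : R) else 0) := fun T => Finset.sum_comm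
    rw [Finset.sum_comm]
    simp only [this]
    rw [Finset.sum_comm]
  rw [h2]
  refine Finset.sum_congr rfl fun c _ => ?_
  by_cases hc : c ∈ Set.range S
  · rw [det_cons_eq_zero A' S c hc]
    simp
  · rw [sum_pairs_eq_one S c hc, mul_one]

/-- PL3a. -/
theorem contr_minors (A' : Matrix (Fin (n + 1)) (Fin d) R) (x : Fin d → R) (S : Fin n ↪o Fin d) :
    contr (minors A') x S =
      (Matrix.of fun (r : Fin (n + 1)) (j : Fin (n + 1)) =>
        (Fin.cons ((A' *ᵥ x) r) (fun k => A' r (S k)) : Fin (n + 1) → R) j).det := by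
  rw [contr_minors_eq_sum, Matrix.det_succ_column_zero]
  have h : ∀ c : Fin d, (A'.submatrix id (Fin.cons c S : Fin (n + 1) → Fin d)).det
      = ∑ r : Fin (n + 1), (-1) ^ (r : ℕ) * A' r c * (A'.submatrix r.succAbove S).det := by
    intro c
    rw [Matrix.det_succ_column_zero]
    rfl
  simp only [h, Finset.mul_sum]
  rw [Finset.sum_comm]
  refine Finset.sum_congr rfl fun r _ => ?_
  have e1 : (Matrix.of fun (r : Fin (n + 1)) (j : Fin (n + 1)) =>
        (Fin.cons ((A' *ᵥ x) r) (fun k => A' r (S k)) : Fin (n + 1) → R) j) r 0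
      = ∑ c, A' r c * x c := rfl
  have e2 : (Matrix.of fun (r : Fin (n + 1)) (j : Fin (n + 1)) =>
        (Fin.cons ((A' *ᵥ x) r) (fun k => A' r (S k)) : Fin (n + 1) → R) j).submatrix
          r.succAbove Fin.succ = A'.submatrix r.succAbove S := rfl
  rw [e1, e2, Finset.mul_sum, Finset.sum_mul]
  refine Finset.sum_congr rfl fun c _ => ?_
  ring

/-- PL3b. -/
theorem contr_minors_consRow (l : Fin d → R) (A : Matrix (Fin n) (Fin d) R) (x : Fin d → R)
    (hx : A *ᵥ x = 0) : contr (minors (consRow l A)) x = (l ⬝ᵥ x) • minors A := by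
  funext S
  rw [contr_minors, Matrix.det_succ_column_zero, Finset.sum_eq_single 0]
  · have e1 : (Matrix.of fun (r : Fin (n + 1)) (j : Fin (n + 1)) =>
        (Fin.cons ((consRow l A *ᵥ x) r) (fun k => consRow l A r (S k)) : Fin (n + 1) → R) j) 0 0
        = l ⬝ᵥ x := rfl
    have e2 : (Matrix.of fun (r : Fin (n + 1)) (j : Fin (n + 1)) =>
        (Fin.cons ((consRow l A *ᵥ x) r) (fun k => consRow l A r (S k)) : Fin (n + 1) → R)
          j).submatrix (Fin.succAbove 0) Fin.succ = A.submatrix id S := by
      ext i j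
      rfl
    rw [e1, e2]
    simp [minors_apply]
  · intro r _ hr
    obtain ⟨k, rfl⟩ := Fin.exists_succ_eq.2 hr
    have e1 : (Matrix.of fun (r : Fin (n + 1)) (j : Fin (n + 1)) =>
        (Fin.cons ((consRow l A *ᵥ x) r) (fun k => consRow l A r (S k)) : Fin (n + 1) → R) j)
          k.succ 0 = (A *ᵥ x) k := rfl
    rw [e1, hx]
    simp
  · intro h
    exact absurd (Finset.mem_univ _) h

theorem kerVecP_add (p q : (Fin n ↪o Fin d) → R) (T : Fin (n + 1) ↪o Fin d) :
    kerVecP (p + q) T = kerVecP p T + kerVecP q T := by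
  funext c
  simp only [kerVecP, Pi.add_apply, ← Finset.sum_add_distrib]
  refine Finset.sum_congr rfl fun i _ => ?_
  split_ifs <;> ring

theorem kerVecP_smul (c : R) (p : (Fin n ↪o Fin d) → R) (T : Fin (n + 1) ↪o Fin d) :
    kerVecP (c • p) T = c • kerVecP p T := by
  funext e
  simp only [kerVecP, Pi.smul_apply, smul_eq_mul, Finset.mul_sum]
  refine Finset.sum_congr rfl fun i _ => ?_
  split_ifs <;> ring

theorem contr_smul_left (c : R) (p : (Fin (n + 1) ↪o Fin d) → R) (x : Fin d → R) :
    contr (c • p) x = c • contr p x := by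
  funext S
  simp only [contr, Pi.smul_apply, smul_eq_mul, Finset.mul_sum]
  refine Finset.sum_congr rfl fun T _ => Finset.sum_congr rfl fun i _ => ?_
  split_ifs <;> ring

theorem contr_smul_right (c : R) (p : (Fin (n + 1) ↪o Fin d) → R) (x : Fin d → R) :
    contr p (c • x) = c • contr p x := by
  funext S
  simp only [contr, Pi.smul_apply, smul_eq_mul, Finset.mul_sum]
  refine Finset.sum_congr rfl fun T _ => Finset.sum_congr rfl fun i _ => ?_
  split_ifs <;> ring

theorem contr_add_right (p : (Fin (n + 1) ↪o Fin d) → R) (x y : Fin d → R) :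
    contr p (x + y) = contr p x + contr p y := by
  funext S
  simp only [contr, Pi.add_apply, ← Finset.sum_add_distrib]
  refine Finset.sum_congr rfl fun T _ => Finset.sum_congr rfl fun i _ => ?_
  split_ifs <;> ring

theorem contr_add_left (p q : (Fin (n + 1) ↪o Fin d) → R) (x : Fin d → R) :
    contr (p + q) x = contr p x + contr q x := by
  funext S
  simp only [contr, Pi.add_apply, ← Finset.sum_add_distrib]
  refine Finset.sum_congr rfl fun T _ => Finset.sum_congr rfl fun i _ => ?_
  split_ifs <;> ring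

end Fermat.Agent.S17.TP
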