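import Fermat.Agent.S17.TP.AbsDefs
import Fermat.Agent.S17.TP.PLIdent

/-!
# S17 / TP : Lemma Y (the trilinear identity `Y = κ p₁' ⊗ p₂' ⊗ p₃`)  (task S17-AbsY)
-/

set_option autoImplicit false

noncomputable section

namespace Fermat.Agent.S17.TP

open Fermat.Agent.S17 Matrix Module

section Aux
variable {K : Type} [Field K] {d : ℕ}

theorem absY_mem_iff {r : ℕ} {A : Matrix (Fin r) (Fin d) K} {U : Submodule K (Fin d → K)}
    (h : IsCut A U) (x : Fin d → K) : x ∈ U ↔ A *ᵥ x = 0 := by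
  rw [← h.2, LinearMap.mem_ker, Matrix.mulVecLin_apply]

theorem absY_consRow_mulVec {r : ℕ} (l : Fin d → K) (A : Matrix (Fin r) (Fin d) K)
    (x : Fin d → K) : consRow l A *ᵥ x = 0 ↔ l ⬝ᵥ x = 0 ∧ A *ᵥ x = 0 := by
  constructor
  · intro h
    refine ⟨?_, funext fun i => ?_⟩
    · simpa [consRow, Matrix.mulVec] using congrFun h 0
    · simpa [consRow, Matrix.mulVec] using congrFun h i.succ
  · rintro ⟨h1, h2⟩
    funext i
    refine Fin.cases ?_ (fun j => ?_) i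
    · simpa [consRow, Matrix.mulVec] using h1
    · simpa [consRow, Matrix.mulVec] using congrFun h2 j

theorem absY_mem_iff' {r : ℕ} {A : Matrix (Fin r) (Fin d) K} {U U' : Submodule K (Fin d → K)}
    {l : Fin d → K} (h : IsCut A U) (h' : IsCut (consRow l A) U') (x : Fin d → K) :
    x ∈ U' ↔ l ⬝ᵥ x = 0 ∧ x ∈ U := by
  rw [absY_mem_iff h', absY_consRow_mulVec, absY_mem_iff h]

/-- a vector of `U` on which the extra row takes the value `1` -/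
theorem absY_exists_one {r : ℕ} {A : Matrix (Fin r) (Fin d) K} {U U' : Submodule K (Fin d → K)}
    {l : Fin d → K} (h : IsCut A U) (h' : IsCut (consRow l A) U')
    (hfr : finrank K U' + 1 = finrank K U) : ∃ f ∈ U, l ⬝ᵥ f = 1 := by
  have hne : ¬ U ≤ U' := by
    intro hle
    have := Submodule.finrank_mono hle
    omega
  obtain ⟨f, hf, hf'⟩ := Set.not_subset.mp hne
  have hl : l ⬝ᵥ f ≠ 0 := fun h0 => hf' ((absY_mem_iff' h h' f).mpr ⟨h0, hf⟩)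
  refine ⟨(l ⬝ᵥ f)⁻¹ • f, U.smul_mem _ hf, ?_⟩
  rw [dotProduct_smul, smul_eq_mul, inv_mul_cancel₀ hl]

theorem absY_sub_mem {r : ℕ} {A : Matrix (Fin r) (Fin d) K} {U U' : Submodule K (Fin d → K)}
    {l : Fin d → K} (h : IsCut A U) (h' : IsCut (consRow l A) U') {f f₀ : Fin d → K}
    (hf : f ∈ U) (hf₀ : f₀ ∈ U) (h1 : l ⬝ᵥ f₀ = 1) : f - (l ⬝ᵥ f) • f₀ ∈ U' := by
  refine (absY_mem_iff' h h' _).mpr ⟨?_, U.sub_mem hf (U.smul_mem _ hf₀)⟩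
  rw [dotProduct_sub, dotProduct_smul, h1, smul_eq_mul, mul_one, sub_self]

theorem absY_kerVecP_mem {r : ℕ} {A : Matrix (Fin r) (Fin d) K} {U : Submodule K (Fin d → K)}
    (h : IsCut A U) (T : Fin (r + 1) ↪o Fin d) : kerVecP (minors A) T ∈ U := by
  rw [absY_mem_iff h, ← kerVec_eq_kerVecP]
  exact mulVec_kerVec A T

end Aux

section Abs
variable {K : Type} [Field K] {a b c : ℕ}
  (μ : (Fin a → K) →ₗ[K] (Fin b → K) →ₗ[K] (Fin c → K))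

/-- **Lemma Y**. -/
theorem lemma_Y {r₁ r₂ r₃ : ℕ} {U₁ U₁' : Submodule K (Fin a → K)} {U₂ U₂' : Submodule K (Fin b → K)}
    {U₃ U₃' : Submodule K (Fin c → K)} (hY : YData μ U₁ U₁' U₂ U₂' U₃ U₃')
    {A₁ : Matrix (Fin r₁) (Fin a) K} {A₂ : Matrix (Fin r₂) (Fin b) K} {A₃ : Matrix (Fin r₃) (Fin c) K}
    {l₁ : Fin a → K} {l₂ : Fin b → K} {l₃ : Fin c → K}
    (h₁ : IsCut A₁ U₁) (h₂ : IsCut A₂ U₂) (h₃ : IsCut A₃ U₃)
    (h₁' : IsCut (consRow l₁ A₁) U₁') (h₂' : IsCut (consRow l₂ A₂) U₂')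
    (h₃' : IsCut (consRow l₃ A₃) U₃') :
    ∃ κ : K, κ ≠ 0 ∧ Ymap μ (minors (consRow l₃ A₃)) (minors A₁) (minors A₂) =
      fun I => κ * (minors (consRow l₁ A₁) I.1 * (minors (consRow l₂ A₂) I.2.1 * minors A₃ I.2.2)) := by
  obtain ⟨f₀, hf₀, hf₀1⟩ := absY_exists_one h₁ h₁' hY.fr₁
  obtain ⟨g₀, hg₀, hg₀1⟩ := absY_exists_one h₂ h₂' hY.fr₂
  -- the bilinear form
  have hβ : ∀ f ∈ U₁, ∀ g ∈ U₂,
      l₃ ⬝ᵥ μ f g = (l₁ ⬝ᵥ f) * (l₂ ⬝ᵥ g) * (l₃ ⬝ᵥ μ f₀ g₀) := by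
    intro f hf g hg
    have s1 : l₃ ⬝ᵥ μ (f - (l₁ ⬝ᵥ f) • f₀) g = 0 :=
      ((absY_mem_iff' h₃ h₃' _).mp (hY.mul₁
        (Submodule.apply_mem_map₂ μ (absY_sub_mem h₁ h₁' hf hf₀ hf₀1) hg))).1
    have s2 : l₃ ⬝ᵥ μ f₀ (g - (l₂ ⬝ᵥ g) • g₀) = 0 :=
      ((absY_mem_iff' h₃ h₃' _).mp (hY.mul₂
        (Submodule.apply_mem_map₂ μ hf₀ (absY_sub_mem h₂ h₂' hg hg₀ hg₀1)))).1
    rw [map_sub, map_smul, LinearMap.sub_apply, LinearMap.smul_apply, dotProduct_sub,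
      dotProduct_smul, smul_eq_mul, sub_eq_zero] at s1
    rw [map_sub, map_smul, dotProduct_sub, dotProduct_smul, smul_eq_mul, sub_eq_zero] at s2
    rw [s1, s2]
    ring
  refine ⟨l₃ ⬝ᵥ μ f₀ g₀, ?_, ?_⟩
  · intro h0
    refine hY.not_le ?_
    unfold mulSpan
    rw [Submodule.map₂_le]
    intro f hf g hg
    refine (absY_mem_iff' h₃ h₃' _).mpr ⟨?_, hY.mul (Submodule.apply_mem_map₂ μ hf hg)⟩
    rw [hβ f hf g hg, h0, mul_zero]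
  · funext I
    obtain ⟨T₁, T₂, S⟩ := I
    have m₁ := absY_kerVecP_mem h₁ T₁
    have m₂ := absY_kerVecP_mem h₂ T₂
    have hx : A₃ *ᵥ μ (kerVecP (minors A₁) T₁) (kerVecP (minors A₂) T₂) = 0 :=
      (absY_mem_iff h₃ _).mp (hY.mul (Submodule.apply_mem_map₂ μ m₁ m₂))
    show contr (minors (consRow l₃ A₃)) (μ (kerVecP (minors A₁) T₁) (kerVecP (minors A₂) T₂)) S = _
    rw [contr_minors_consRow l₃ A₃ _ hx, Pi.smul_apply, smul_eq_mul, hβ _ m₁ _ m₂,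
      minors_consRow l₁ A₁ T₁, minors_consRow l₂ A₂ T₂, kerVec_eq_kerVecP, kerVec_eq_kerVecP]
    ring

end Abs

end Fermat.Agent.S17.TP
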