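import Fermat.Agent.S17.TP.PLIdent
import Fermat.Agent.S17.Tools.MinorsRank

/-!
# S17 / TP / PL4 : cutting matrices of subspaces (`IsCut` API)
-/

set_option autoImplicit false

noncomputable section

namespace Fermat.Agent.S17.TP

open Fermat.Agent.S17 Matrix Module

variable {K : Type} [Field K] {n d : ℕ}

theorem linearIndependent_row_of_surjective {r : ℕ} (A : Matrix (Fin r) (Fin d) K)
    (h : Function.Surjective A.mulVecLin) : LinearIndependent K A.row := by
  rw [← Matrix.vecMul_injective_iff]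
  intro v w hvw
  have hvw' : v ᵥ* A = w ᵥ* A := hvw
  have h0 : (v - w) ᵥ* A = 0 := by rw [Matrix.sub_vecMul, hvw', sub_self]
  have h2 : ∀ y : Fin r → K, (v - w) ⬝ᵥ y = 0 := by
    intro y
    obtain ⟨z, hz⟩ := h y
    have hz' : A *ᵥ z = y := hz
    rw [← hz', Matrix.dotProduct_mulVec, h0, zero_dotProduct]
  have h3 : v - w = 0 := dotProduct_eq_zero _ h2
  exact sub_eq_zero.1 h3

theorem exists_isCut (U : Submodule K (Fin d → K)) :
    ∃ (r : ℕ) (A : Matrix (Fin r) (Fin d) K), IsCut A U := by
  let r := finrank K ((Fin d → K) ⧸ U)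
  let e : ((Fin d → K) ⧸ U) ≃ₗ[K] (Fin r → K) := (Module.finBasis K _).equivFun
  let π : (Fin d → K) →ₗ[K] (Fin r → K) := e.toLinearMap ∘ₗ U.mkQ
  refine ⟨r, LinearMap.toMatrix' π, ?_, ?_⟩
  · apply linearIndependent_row_of_surjective
    rw [← Matrix.toLin'_apply', Matrix.toLin'_toMatrix']
    exact e.surjective.comp U.mkQ_surjective
  · rw [← Matrix.toLin'_apply', Matrix.toLin'_toMatrix']
    simp [π, LinearMap.ker_comp]

theorem IsCut.finrank_add {r : ℕ} {A : Matrix (Fin r) (Fin d) K} {U : Submodule K (Fin d → K)}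
    (h : IsCut A U) : finrank K U + r = d := by
  have h1 := LinearMap.finrank_range_add_finrank_ker A.mulVecLin
  have h2 : finrank K (LinearMap.range A.mulVecLin) = r := by
    have := h.1.rank_matrix
    simpa [Matrix.rank] using this
  rw [h2, h.2] at h1
  simp at h1
  omega

theorem IsCut.minors_ne_zero {r : ℕ} {A : Matrix (Fin r) (Fin d) K} {U : Submodule K (Fin d → K)}
    (h : IsCut A U) : minors A ≠ 0 := (minors_ne_zero_iff A).2 h.1

theorem IsCut.span_kerVecP {r : ℕ} {A : Matrix (Fin r) (Fin d) K} {U : Submodule K (Fin d → K)}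
    (h : IsCut A U) : Submodule.span K (Set.range (kerVecP (minors A))) = U := by
  have := span_kerVec A h.1
  rw [h.2] at this
  exact this

theorem IsCut.mem_iff {r : ℕ} {A : Matrix (Fin r) (Fin d) K} {U : Submodule K (Fin d → K)}
    (h : IsCut A U) (x : Fin d → K) : x ∈ U ↔ A *ᵥ x = 0 := by
  rw [← h.2]; rfl

theorem IsCut.exists_smul {r : ℕ} {A A' : Matrix (Fin r) (Fin d) K} {U : Submodule K (Fin d → K)}
    (h : IsCut A U) (h' : IsCut A' U) : ∃ c : K, c ≠ 0 ∧ minors A' = c • minors A := by
  obtain ⟨C, hC⟩ := exists_right_inverse_of_linearIndependent_row A h.1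
  have hA' : A' = (A' * C) * A := by
    apply Matrix.toLin'.injective
    apply LinearMap.ext
    intro x
    simp only [Matrix.toLin'_apply]
    have hx : x - C *ᵥ (A *ᵥ x) ∈ U := by
      rw [h.mem_iff, Matrix.mulVec_sub, Matrix.mulVec_mulVec, hC, Matrix.one_mulVec, sub_self]
    rw [h'.mem_iff, Matrix.mulVec_sub, sub_eq_zero] at hx
    rw [hx, ← Matrix.mulVec_mulVec, ← Matrix.mulVec_mulVec]
  have hm : minors A' = (A' * C).det • minors A := by
    conv_lhs => rw [hA']
    exact minors_mul_left _ _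
  refine ⟨(A' * C).det, ?_, hm⟩
  intro h0
  apply h'.minors_ne_zero
  rw [hm, h0, zero_smul]

theorem consRow_mulVec (l : Fin d → K) {r : ℕ} (A : Matrix (Fin r) (Fin d) K) (x : Fin d → K) :
    consRow l A *ᵥ x = Fin.cons (l ⬝ᵥ x) (A *ᵥ x) := by
  funext i
  refine Fin.cases ?_ (fun k => ?_) i
  · rfl
  · rfl

/-- a hyperplane `U'` of `U` is cut out by one more row -/
theorem IsCut.exists_consRow {r : ℕ} {A : Matrix (Fin r) (Fin d) K} {U U' : Submodule K (Fin d → K)}
    (h : IsCut A U) (hle : U' ≤ U) (hfr : finrank K U' + 1 = finrank K U) :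
    ∃ l : Fin d → K, IsCut (consRow l A) U' := by
  obtain ⟨r', A', h'⟩ := exists_isCut U'
  have hne : ¬ U ≤ U' := by
    intro hUU
    have := Submodule.finrank_mono hUU
    omega
  obtain ⟨u₀, hu₀, hu₀'⟩ := SetLike.not_le_iff_exists.1 hne
  have hA'u : A' *ᵥ u₀ ≠ 0 := fun h0 => hu₀' ((h'.mem_iff u₀).2 h0)
  obtain ⟨i, hi⟩ := Function.ne_iff.1 hA'u
  let l : Fin d → K := A' i
  have hlu : l ⬝ᵥ u₀ ≠ 0 := hi
  have hlU' : ∀ x ∈ U', l ⬝ᵥ x = 0 := by
    intro x hx
    have := (h'.mem_iff x).1 hx
    exact congrFun this i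
  refine ⟨l, ?_, ?_⟩
  · have hrow : (consRow l A).row = Fin.cons l A.row := by
      funext j
      refine Fin.cases ?_ (fun k => ?_) j
      · rfl
      · rfl
    rw [hrow, linearIndependent_finCons]
    refine ⟨h.1, ?_⟩
    intro hl
    apply hlu
    have : ∀ y ∈ Submodule.span K (Set.range A.row), y ⬝ᵥ u₀ = 0 := by
      intro y hy
      induction hy using Submodule.span_induction with
      | mem y hy =>
        obtain ⟨k, rfl⟩ := hy
        exact congrFun ((h.mem_iff u₀).1 hu₀) k
      | zero => simp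
      | add y z _ _ hy hz => rw [add_dotProduct, hy, hz, add_zero]
      | smul c y _ hy => rw [smul_dotProduct, hy, smul_zero]
    exact this l hl
  · symm
    apply Submodule.eq_of_le_of_finrank_le
    · intro x hx
      show consRow l A *ᵥ x = 0
      rw [consRow_mulVec, hlU' x hx, (h.mem_iff x).1 (hle hx)]
      funext j
      refine Fin.cases ?_ (fun k => ?_) j
      · rfl
      · rfl
    · have hlt : LinearMap.ker (consRow l A).mulVecLin < U := by
        refine lt_of_le_of_ne ?_ ?_
        · intro x hx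
          have hx' : consRow l A *ᵥ x = 0 := hx
          rw [consRow_mulVec] at hx'
          rw [h.mem_iff]
          funext k
          exact congrFun hx' k.succ
        · intro heq
          have : u₀ ∈ LinearMap.ker (consRow l A).mulVecLin := heq ▸ hu₀
          have hx' : consRow l A *ᵥ u₀ = 0 := this
          rw [consRow_mulVec] at hx'
          exact hlu (congrFun hx' 0)
      have := Submodule.finrank_lt_finrank_of_lt hlt
      omega

end Fermat.Agent.S17.TP
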