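import Fermat.Agent.S17.TP.Multi

/-!
# S17 / TP : the lower bound `TP_lower` (Nullstellensatz)
-/

set_option autoImplicit false

namespace Fermat.Agent.S17.TP

open MvPolynomial

variable {K : Type} [Field K]

/-- Nullstellensatz step: a power of `∏ k, x (j k)` is a combination of the `Φ x t` on `Z`. -/
theorem lower_exists_pow [IsAlgClosed K] {σ κ τ : Type} [Fintype σ] [Fintype κ]
    [Fintype τ] (b : σ → κ) (Φ : (σ → K) → τ → K) (P : τ → MvPolynomial σ K)
    (hP : ∀ t x, Φ x t = eval x (P t))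
    (Z : Set (σ → K)) (hZ : IsZClosed Z)
    (hne : ∀ x ∈ Z, (∀ k, block b x k ≠ 0) → Φ x ≠ 0) (j : (k : κ) → {s // b s = k}) :
    ∃ (M : ℕ) (G : τ → MvPolynomial σ K), ∀ x ∈ Z,
      (∏ k, x (j k)) ^ M = ∑ t, eval x (G t) * Φ x t := by
  classical
  obtain ⟨S, rfl⟩ := hZ
  set J : Ideal (MvPolynomial σ K) := Ideal.span S ⊔ Ideal.span (Set.range P) with hJ
  have hmem : (∏ k, X (j k).1 : MvPolynomial σ K) ∈ vanishingIdeal K (zeroLocus K J) := by
    rw [mem_vanishingIdeal_iff]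
    intro x hx
    rw [mem_zeroLocus_iff] at hx
    have hxZ : x ∈ {x | ∀ P ∈ S, eval x P = 0} := by
      intro Q hQ
      have := hx Q (Ideal.mem_sup_left (Ideal.subset_span hQ))
      simpa [coe_aeval_eq_eval] using this
    have hxΦ : Φ x = 0 := by
      funext t
      have := hx (P t) (Ideal.mem_sup_right (Ideal.subset_span ⟨t, rfl⟩))
      rw [hP]
      simpa [coe_aeval_eq_eval] using this
    have hk : ∃ k, block b x k = 0 := by
      by_contra hcon
      push Not at hcon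
      exact hne x hxZ hcon hxΦ
    obtain ⟨k, hk⟩ := hk
    have hxk : x (j k) = 0 := congrFun hk (j k)
    rw [map_prod]
    refine Finset.prod_eq_zero (Finset.mem_univ k) ?_
    simpa using hxk
  rw [vanishingIdeal_zeroLocus_eq_radical] at hmem
  obtain ⟨M, hM⟩ := hmem
  rw [hJ, Submodule.mem_sup] at hM
  obtain ⟨s, hs, r, hr, hsr⟩ := hM
  obtain ⟨G, hG⟩ := (Ideal.mem_span_range_iff_exists_fun).1 hr
  refine ⟨M, G, fun x hx => ?_⟩
  have hs0 : eval x s = 0 := by
    have hle : Ideal.span S ≤ RingHom.ker (eval x) := by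
      rw [Ideal.span_le]
      intro Q hQ
      exact hx Q hQ
    exact hle hs
  have h1 := congrArg (eval x) hsr
  rw [map_add, hs0, zero_add, ← hG, map_sum, map_pow, map_prod] at h1
  simp only [eval_X, map_mul] at h1
  rw [← h1]
  exact Finset.sum_congr rfl fun t _ => by rw [hP]

/-- a uniform exponent, at least `N`. -/
theorem lower_exists_pow_uniform [IsAlgClosed K] {σ κ τ : Type} [Fintype σ] [Fintype κ]
    [Fintype τ] (b : σ → κ) (Φ : (σ → K) → τ → K) (P : τ → MvPolynomial σ K)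
    (hP : ∀ t x, Φ x t = eval x (P t))
    (Z : Set (σ → K)) (hZ : IsZClosed Z)
    (hne : ∀ x ∈ Z, (∀ k, block b x k ≠ 0) → Φ x ≠ 0) (N : ℕ) :
    ∃ (M : ℕ) (G : ((k : κ) → {s // b s = k}) → τ → MvPolynomial σ K), N ≤ M ∧
      ∀ j, ∀ x ∈ Z, (∏ k, x (j k)) ^ M = ∑ t, eval x (G j t) * Φ x t := by
  classical
  choose M₀ G₀ h₀ using lower_exists_pow b Φ P hP Z hZ hne
  refine ⟨N + ∑ j, M₀ j, fun j t => (∏ k, X (j k).1) ^ (N + ∑ j, M₀ j - M₀ j) * G₀ j t,
    Nat.le_add_right _ _, fun j x hx => ?_⟩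
  have hle : M₀ j ≤ N + ∑ j, M₀ j :=
    (Finset.single_le_sum (f := M₀) (fun _ _ => Nat.zero_le _) (Finset.mem_univ j)).trans
      (Nat.le_add_left _ _)
  have h1 : (∏ k, x (j k)) ^ (N + ∑ j, M₀ j) =
      (∏ k, x (j k)) ^ (N + ∑ j, M₀ j - M₀ j) * (∏ k, x (j k)) ^ M₀ j := by
    rw [← pow_add, Nat.sub_add_cancel hle]
  rw [h1, h₀ j x hx, Finset.mul_sum]
  refine Finset.sum_congr rfl fun t _ => ?_
  simp only [map_mul, map_pow, map_prod, eval_X]
  ring

/-- **TP**, lower bound. -/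
theorem TP_lower (H : HeightFn K) [IsAlgClosed K] {σ κ τ : Type} [Fintype σ] [Fintype κ]
    [Fintype τ] (b : σ → κ) (d : κ → ℕ) (Φ : (σ → K) → τ → K)
    (hΦ : ∀ t, IsPolyFun (fun x => Φ x t))
    (hhom : ∀ c x, Φ (blockSMul b c x) = (∏ k, c k ^ d k) • Φ x)
    (Z : Set (σ → K)) (hZ : IsZClosed Z) (hcone : ∀ c x, x ∈ Z → blockSMul b c x ∈ Z)
    (hne : ∀ x ∈ Z, (∀ k, block b x k ≠ 0) → Φ x ≠ 0) :
    ∃ C : ℝ, ∀ x ∈ Z, (∀ k, block b x k ≠ 0) →
      ∑ k, d k * H.h (block b x k) ≤ H.h (Φ x) + C := by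
  classical
  have : Infinite K := IsAlgClosed.instInfinite
  choose P hP using hΦ
  replace hP : ∀ (t : τ) (x : σ → K), Φ x t = eval x (P t) := hP
  obtain ⟨M, G, hMd, hG⟩ := lower_exists_pow_uniform b Φ P hP Z hZ hne (∑ k, d k)
  have hdM : ∀ k, d k ≤ M := fun k =>
    (Finset.single_le_sum (f := d) (fun _ _ => Nat.zero_le _) (Finset.mem_univ k)).trans hMd
  set dd : κ →₀ ℕ := Finsupp.equivFunOnFinite.symm d with hdd
  set eM : κ →₀ ℕ := Finsupp.equivFunOnFinite.symm (fun _ => M) with heM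
  set e₀ : κ →₀ ℕ := eM - dd with he₀
  have hle : dd ≤ eM := fun k => hdM k
  set T : Finset (σ →₀ ℕ) :=
    (Finset.univ.biUnion fun p : ((k : κ) → {s // b s = k}) × τ => (G p.1 p.2).support).filter
      (fun m => m.mapDomain b = e₀) with hT
  have hTe : ∀ m ∈ T, m.mapDomain b = e₀ := fun m hm => (Finset.mem_filter.1 hm).2
  -- the multihomogeneous component of the Nullstellensatz identity
  have key : ∀ x ∈ Z, ∀ j, (∏ k, x (j k)) ^ M =
      ∑ p : T × τ, coeff p.1.1 (G j p.2) * (monoVec T x p.1 * Φ x p.2) := by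
    intro x hx j
    have h1 : monomial eM ((∏ k, x (j k)) ^ M) =
        ∑ t, multiTheta b x (G j t) * monomial dd (Φ x t) := by
      refine MvPolynomial.funext fun c => ?_
      rw [heM, eval_monomial_equivFun, map_sum]
      have h2 := hG j (blockSMul b c x) (hcone c x hx)
      have h3 : (∏ k, blockSMul b c x (j k)) ^ M = (∏ k, c k ^ M) * (∏ k, x (j k)) ^ M := by
        have : ∀ k, blockSMul b c x (j k) = c k * x (j k) := fun k => by
          rw [blockSMul, (j k).2]
        simp only [this, Finset.prod_mul_distrib, mul_pow, Finset.prod_pow]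
      rw [← h3, h2]
      refine Finset.sum_congr rfl fun t _ => ?_
      rw [map_mul, eval_multiTheta, hdd, eval_monomial_equivFun, hhom]
      rfl
    have h4 := congrArg (coeff eM) h1
    rw [coeff_monomial, if_pos rfl, coeff_sum] at h4
    rw [h4, Fintype.sum_prod_type_right]
    refine Finset.sum_congr rfl fun t _ => ?_
    rw [coeff_mul_monomial', if_pos hle, ← he₀,
      coeff_multiTheta_eq_sum b x (G j t) e₀ T ?_ hTe, Finset.sum_mul]
    · exact Finset.sum_congr rfl fun m _ => by ring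
    · intro m hm hme
      exact Finset.mem_filter.2 ⟨Finset.mem_biUnion.2 ⟨(j, t), Finset.mem_univ _, hm⟩, hme⟩
  obtain ⟨C, hC⟩ := H.linear
    (fun (j : (k : κ) → {s // b s = k}) (p : T × τ) => coeff p.1.1 (G j p.2))
  refine ⟨C, fun x hx hxb => ?_⟩
  -- the vector `u`
  have hu : H.h (fun j : (k : κ) → {s // b s = k} => (∏ k, x (j k)) ^ M) =
      ∑ k, (M : ℝ) * H.h (block b x k) := by
    have h1 := H.prod (α := κ) (ι := fun k => {s // b s = k})
      (fun k => fun s : {s // b s = k} => (block b x k s) ^ M) (fun k h0 => hxb k (by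
        funext s
        exact eq_zero_of_pow_eq_zero (congrFun h0 s)))
    have h2 : (fun j : (k : κ) → {s // b s = k} => (∏ k, x (j k)) ^ M) =
        fun I : (k : κ) → {s // b s = k} => ∏ k, (block b x k (I k)) ^ M := by
      funext j
      rw [Finset.prod_pow]
      rfl
    rw [h2, h1]
    exact Finset.sum_congr rfl fun k _ => H.pow _ _
  have hxs : ∀ k, ∃ s : {s // b s = k}, x s ≠ 0 := fun k => Function.ne_iff.1 (hxb k)
  choose j₀ hj₀ using hxs
  have hΦ0 : Φ x ≠ 0 := hne x hx hxb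
  have hV0 : monoVec T x ≠ 0 := by
    intro h0
    have h1 := key x hx j₀
    rw [h0] at h1
    simp only [Pi.zero_apply, zero_mul, mul_zero, Finset.sum_const_zero] at h1
    exact Finset.prod_ne_zero_iff.2 (fun k _ => hj₀ k) (eq_zero_of_pow_eq_zero h1)
  have h5 : (fun j : (k : κ) → {s // b s = k} => (∏ k, x (j k)) ^ M) =
      fun j => ∑ p : T × τ, coeff p.1.1 (G j p.2) * (monoVec T x p.1 * Φ x p.2) :=
    funext (key x hx)
  have h6 := hC (fun p : T × τ => monoVec T x p.1 * Φ x p.2)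
  rw [← h5, hu, H.mul _ _ hV0 hΦ0] at h6
  have h7 := h_monoVec_le H b e₀ T hTe x hxb
  have h8 : ∑ k, (e₀ k : ℝ) * H.h (block b x k) =
      ∑ k, (M : ℝ) * H.h (block b x k) - ∑ k, (d k : ℝ) * H.h (block b x k) := by
    rw [← Finset.sum_sub_distrib]
    refine Finset.sum_congr rfl fun k _ => ?_
    have : e₀ k = M - d k := rfl
    rw [this, Nat.cast_sub (hdM k)]
    ring
  linarith

end Fermat.Agent.S17.TP
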