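import Fermat.Agent.S17.TP.Multi

/-!
# S17 / TP : the upper bound `TP_upper`
-/

set_option autoImplicit false

namespace Fermat.Agent.S17.TP

open MvPolynomial

variable {K : Type} [Field K]

/-- TP, upper bound (no closed set needed). -/
theorem TP_upper (H : HeightFn K) [Infinite K] {σ κ τ : Type} [Fintype σ] [Fintype κ] [Fintype τ]
    (b : σ → κ) (d : κ → ℕ) (Φ : (σ → K) → τ → K) (hΦ : ∀ t, IsPolyFun (fun x => Φ x t))
    (hhom : ∀ c x, Φ (blockSMul b c x) = (∏ k, c k ^ d k) • Φ x) :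
    ∃ C : ℝ, ∀ x, (∀ k, block b x k ≠ 0) → H.h (Φ x) ≤ ∑ k, d k * H.h (block b x k) + C := by
  classical
  choose P hP using hΦ
  replace hP : ∀ (t : τ) (x : σ → K), Φ x t = eval x (P t) := hP
  set dd : κ →₀ ℕ := Finsupp.equivFunOnFinite.symm d with hdd
  set T : Finset (σ →₀ ℕ) :=
    (Finset.univ.biUnion fun t => (P t).support).filter (fun m => m.mapDomain b = dd) with hT
  have hTe : ∀ m ∈ T, m.mapDomain b = dd := fun m hm => (Finset.mem_filter.1 hm).2
  have key : ∀ x t, Φ x t = ∑ m : T, coeff m.1 (P t) * monoVec T x m := by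
    intro x t
    have h1 : multiTheta b x (P t) = monomial dd (Φ x t) := by
      refine MvPolynomial.funext fun c => ?_
      rw [eval_multiTheta, ← hP, hhom, hdd, eval_monomial_equivFun]
      rfl
    rw [← coeff_multiTheta_eq_sum b x (P t) dd T ?_ hTe, h1, coeff_monomial, if_pos rfl]
    intro m hm hme
    exact Finset.mem_filter.2 ⟨Finset.mem_biUnion.2 ⟨t, Finset.mem_univ _, hm⟩, hme⟩
  obtain ⟨C, hC⟩ := H.linear (fun (t : τ) (m : T) => coeff m.1 (P t))
  refine ⟨C, fun x hx => ?_⟩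
  have h1 : Φ x = fun t => ∑ m : T, coeff m.1 (P t) * monoVec T x m := funext (key x)
  rw [h1]
  have h2 := h_monoVec_le H b dd T hTe x hx
  have h3 := hC (monoVec T x)
  have h4 : ∑ k, (dd k : ℝ) * H.h (block b x k) = ∑ k, (d k : ℝ) * H.h (block b x k) := rfl
  linarith

end Fermat.Agent.S17.TP
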