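import Fermat.Agent.S17.TP.ThreeAux
import Fermat.Agent.S17.TP.Upper
import Fermat.Agent.S17.TP.Lower

/-!
# S17 / TP : 2- and 3-block user versions of TP (owner helper267)
(`TP_linear_injective` is in `TP/ThreeAux.lean`.)
-/

set_option autoImplicit false

namespace Fermat.Agent.S17.TP

variable {K : Type} [Field K]

theorem upperStmt (H : HeightFn K) [Infinite K] : UpperStmt H :=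
  fun b d Φ hΦ hhom => TP_upper H b d Φ hΦ hhom

theorem lowerStmt (H : HeightFn K) [IsAlgClosed K] : LowerStmt H :=
  fun b d Φ hΦ hhom Z hZ hcone hne => TP_lower H b d Φ hΦ hhom Z hZ hcone hne

theorem TP3_upper (H : HeightFn K) [Infinite K] {ι₁ ι₂ ι₃ τ : Type} [Fintype ι₁] [Fintype ι₂]
    [Fintype ι₃] [Fintype τ] (Φ : (ι₁ → K) → (ι₂ → K) → (ι₃ → K) → τ → K)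
    (hΦ : ∀ t, IsPolyFun (fun x : ι₁ ⊕ ι₂ ⊕ ι₃ → K =>
      Φ (fun i => x (.inl i)) (fun i => x (.inr (.inl i))) (fun i => x (.inr (.inr i))) t))
    (d₁ d₂ d₃ : ℕ)
    (hhom : ∀ (c₁ c₂ c₃ : K) x₁ x₂ x₃,
      Φ (c₁ • x₁) (c₂ • x₂) (c₃ • x₃) = (c₁ ^ d₁ * c₂ ^ d₂ * c₃ ^ d₃) • Φ x₁ x₂ x₃) :
    ∃ C : ℝ, ∀ x₁ x₂ x₃, x₁ ≠ 0 → x₂ ≠ 0 → x₃ ≠ 0 →
      H.h (Φ x₁ x₂ x₃) ≤ d₁ * H.h x₁ + d₂ * H.h x₂ + d₃ * H.h x₃ + C :=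
  TP3_upper_of H (upperStmt H) Φ hΦ d₁ d₂ d₃ hhom

theorem TP3_lower (H : HeightFn K) [IsAlgClosed K] {ι₁ ι₂ ι₃ τ : Type} [Fintype ι₁] [Fintype ι₂]
    [Fintype ι₃] [Fintype τ] (Φ : (ι₁ → K) → (ι₂ → K) → (ι₃ → K) → τ → K)
    (hΦ : ∀ t, IsPolyFun (fun x : ι₁ ⊕ ι₂ ⊕ ι₃ → K =>
      Φ (fun i => x (.inl i)) (fun i => x (.inr (.inl i))) (fun i => x (.inr (.inr i))) t))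
    (d₁ d₂ d₃ : ℕ)
    (hhom : ∀ (c₁ c₂ c₃ : K) x₁ x₂ x₃,
      Φ (c₁ • x₁) (c₂ • x₂) (c₃ • x₃) = (c₁ ^ d₁ * c₂ ^ d₂ * c₃ ^ d₃) • Φ x₁ x₂ x₃)
    (Z₁ : Set (ι₁ → K)) (Z₂ : Set (ι₂ → K)) (Z₃ : Set (ι₃ → K))
    (h₁ : IsZClosed Z₁) (h₂ : IsZClosed Z₂) (h₃ : IsZClosed Z₃)
    (c₁ : IsCone Z₁) (c₂ : IsCone Z₂) (c₃ : IsCone Z₃)
    (hne : ∀ x₁ ∈ Z₁, ∀ x₂ ∈ Z₂, ∀ x₃ ∈ Z₃, x₁ ≠ 0 → x₂ ≠ 0 → x₃ ≠ 0 → Φ x₁ x₂ x₃ ≠ 0) :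
    ∃ C : ℝ, ∀ x₁ ∈ Z₁, ∀ x₂ ∈ Z₂, ∀ x₃ ∈ Z₃, x₁ ≠ 0 → x₂ ≠ 0 → x₃ ≠ 0 →
      d₁ * H.h x₁ + d₂ * H.h x₂ + d₃ * H.h x₃ ≤ H.h (Φ x₁ x₂ x₃) + C :=
  TP3_lower_of H (lowerStmt H) Φ hΦ d₁ d₂ d₃ hhom Z₁ Z₂ Z₃ h₁ h₂ h₃ c₁ c₂ c₃ hne

theorem TP2_upper (H : HeightFn K) [Infinite K] {ι₁ ι₂ τ : Type} [Fintype ι₁] [Fintype ι₂]
    [Fintype τ] (Φ : (ι₁ → K) → (ι₂ → K) → τ → K)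
    (hΦ : ∀ t, IsPolyFun (fun x : ι₁ ⊕ ι₂ → K => Φ (fun i => x (.inl i)) (fun i => x (.inr i)) t))
    (d₁ d₂ : ℕ)
    (hhom : ∀ (c₁ c₂ : K) x₁ x₂, Φ (c₁ • x₁) (c₂ • x₂) = (c₁ ^ d₁ * c₂ ^ d₂) • Φ x₁ x₂) :
    ∃ C : ℝ, ∀ x₁ x₂, x₁ ≠ 0 → x₂ ≠ 0 →
      H.h (Φ x₁ x₂) ≤ d₁ * H.h x₁ + d₂ * H.h x₂ + C :=
  TP2_upper_of H (upperStmt H) Φ hΦ d₁ d₂ hhom

theorem TP2_lower (H : HeightFn K) [IsAlgClosed K] {ι₁ ι₂ τ : Type} [Fintype ι₁] [Fintype ι₂]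
    [Fintype τ] (Φ : (ι₁ → K) → (ι₂ → K) → τ → K)
    (hΦ : ∀ t, IsPolyFun (fun x : ι₁ ⊕ ι₂ → K => Φ (fun i => x (.inl i)) (fun i => x (.inr i)) t))
    (d₁ d₂ : ℕ)
    (hhom : ∀ (c₁ c₂ : K) x₁ x₂, Φ (c₁ • x₁) (c₂ • x₂) = (c₁ ^ d₁ * c₂ ^ d₂) • Φ x₁ x₂)
    (Z₁ : Set (ι₁ → K)) (Z₂ : Set (ι₂ → K)) (h₁ : IsZClosed Z₁) (h₂ : IsZClosed Z₂)
    (c₁ : IsCone Z₁) (c₂ : IsCone Z₂)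
    (hne : ∀ x₁ ∈ Z₁, ∀ x₂ ∈ Z₂, x₁ ≠ 0 → x₂ ≠ 0 → Φ x₁ x₂ ≠ 0) :
    ∃ C : ℝ, ∀ x₁ ∈ Z₁, ∀ x₂ ∈ Z₂, x₁ ≠ 0 → x₂ ≠ 0 →
      d₁ * H.h x₁ + d₂ * H.h x₂ ≤ H.h (Φ x₁ x₂) + C :=
  TP2_lower_of H (lowerStmt H) Φ hΦ d₁ d₂ hhom Z₁ Z₂ h₁ h₂ c₁ c₂ hne

end Fermat.Agent.S17.TP
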