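import Fermat.Agent.S17.TP.AbsPoly
import Fermat.Agent.S17.TP.AbsY
import Fermat.Agent.S17.TP.PLDim
import Fermat.Agent.S17.TP.PLCut
import Fermat.Agent.S17.TP.PLHsub
import Fermat.Agent.S17.TP.Three

/-!
# S17 / TP : the abstract height lemmas (Ale), (Age)  (task S17-AbsA)

`Ymap μ` is trilinear with polynomial coordinates; Lemma Y computes its height on flags; the main
lemma TP (three block version) compares it with the heights of the three arguments.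
-/

set_option autoImplicit false

noncomputable section

namespace Fermat.Agent.S17.TP

open Fermat.Agent.S17 Matrix Module

section Poly

variable {K : Type} [Field K] {a b c : ℕ}
  (μ : (Fin a → K) →ₗ[K] (Fin b → K) →ₗ[K] (Fin c → K))

theorem absA_isPolyFun_Ymap {r₁ r₂ r₃ : ℕ}
    (t : (Fin (r₁ + 1) ↪o Fin a) × (Fin (r₂ + 1) ↪o Fin b) × (Fin r₃ ↪o Fin c)) :
    IsPolyFun (fun x : ((Fin (r₃ + 1) ↪o Fin c) ⊕ (Fin r₁ ↪o Fin a) ⊕ (Fin r₂ ↪o Fin b)) → K =>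
      Ymap μ (fun i => x (.inl i)) (fun i => x (.inr (.inl i))) (fun i => x (.inr (.inr i))) t) := by
  unfold Ymap
  refine absA_isPolyFun_contr (fun S => IsPolyFun.coord _) (fun k => ?_) _
  exact absA_isPolyFun_mu μ
    (fun k => absA_isPolyFun_kerVecP (fun S => IsPolyFun.coord _) _ k)
    (fun k => absA_isPolyFun_kerVecP (fun S => IsPolyFun.coord _) _ k) k

theorem absA_Ymap_smul {r₁ r₂ r₃ : ℕ} (c₁ c₂ c₃ : K) (p₃' : (Fin (r₃ + 1) ↪o Fin c) → K)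
    (p₁ : (Fin r₁ ↪o Fin a) → K) (p₂ : (Fin r₂ ↪o Fin b) → K) :
    Ymap μ (c₁ • p₃') (c₂ • p₁) (c₃ • p₂) = (c₁ ^ 1 * c₂ ^ 1 * c₃ ^ 1) • Ymap μ p₃' p₁ p₂ := by
  funext I
  simp only [Ymap, kerVecP_smul, map_smul, LinearMap.smul_apply, contr_smul_left,
    contr_smul_right, Pi.smul_apply, smul_eq_mul, pow_one]
  ring

/-- if `Ymap` vanishes then the product space is killed by the contraction -/
theorem absA_contr_eq_zero {r₁ r₂ r₃ : ℕ} (p₃' : (Fin (r₃ + 1) ↪o Fin c) → K)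
    (p₁ : (Fin r₁ ↪o Fin a) → K) (p₂ : (Fin r₂ ↪o Fin b) → K) (h : Ymap μ p₃' p₁ p₂ = 0) :
    ∀ x ∈ mulSpan μ (Submodule.span K (Set.range (kerVecP p₁)))
      (Submodule.span K (Set.range (kerVecP p₂))), contr p₃' x = 0 := by
  let W : Submodule K (Fin c → K) :=
    { carrier := {x | contr p₃' x = 0}
      add_mem' := fun {x y} hx hy => by
        show contr p₃' (x + y) = 0
        rw [contr_add_right, show contr p₃' x = 0 from hx, show contr p₃' y = 0 from hy, add_zero]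
      zero_mem' := by
        show contr p₃' 0 = 0
        have := contr_smul_right (0 : K) p₃' 0
        simpa using this
      smul_mem' := fun e x hx => by
        show contr p₃' (e • x) = 0
        rw [contr_smul_right, show contr p₃' x = 0 from hx, smul_zero] }
  have hle : mulSpan μ (Submodule.span K (Set.range (kerVecP p₁)))
      (Submodule.span K (Set.range (kerVecP p₂))) ≤ W := by
    unfold mulSpan
    rw [Submodule.map₂_span_span, Submodule.span_le]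
    rintro _ ⟨_, ⟨T₁, rfl⟩, _, ⟨T₂, rfl⟩, rfl⟩
    show contr p₃' (μ (kerVecP p₁ T₁) (kerVecP p₂ T₂)) = 0
    funext S
    exact congrFun h (T₁, T₂, S)
  exact fun x hx => hle hx

end Poly

section Abs
variable {K : Type} [Field K] [IsAlgClosed K] (H : HeightFn K) {a b c : ℕ}
  (μ : (Fin a → K) →ₗ[K] (Fin b → K) →ₗ[K] (Fin c → K))

/-- the height of `Ymap` on a flag datum -/
theorem absA_height_Ymap {r₁ r₂ r₃ : ℕ} {U₁ U₁' : Submodule K (Fin a → K)}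
    {U₂ U₂' : Submodule K (Fin b → K)}
    {U₃ U₃' : Submodule K (Fin c → K)} (hY : YData μ U₁ U₁' U₂ U₂' U₃ U₃')
    {A₁ : Matrix (Fin r₁) (Fin a) K} {A₂ : Matrix (Fin r₂) (Fin b) K} {A₃ : Matrix (Fin r₃) (Fin c) K}
    {l₁ : Fin a → K} {l₂ : Fin b → K} {l₃ : Fin c → K}
    (h₁ : IsCut A₁ U₁) (h₂ : IsCut A₂ U₂) (h₃ : IsCut A₃ U₃)
    (h₁' : IsCut (consRow l₁ A₁) U₁') (h₂' : IsCut (consRow l₂ A₂) U₂')
    (h₃' : IsCut (consRow l₃ A₃) U₃') :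
    H.h (Ymap μ (minors (consRow l₃ A₃)) (minors A₁) (minors A₂)) =
      Hsub H U₁' + Hsub H U₂' + Hsub H U₃ := by
  obtain ⟨κ, hκ, hYm⟩ := lemma_Y μ hY h₁ h₂ h₃ h₁' h₂' h₃'
  have n₁ := h₁'.minors_ne_zero
  have n₂ := h₂'.minors_ne_zero
  have n₃ := h₃.minors_ne_zero
  have n₂₃ : (fun q : (Fin (r₂ + 1) ↪o Fin b) × (Fin r₃ ↪o Fin c) =>
      minors (consRow l₂ A₂) q.1 * minors A₃ q.2) ≠ 0 := by
    obtain ⟨i, hi⟩ := Function.ne_iff.mp n₂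
    obtain ⟨j, hj⟩ := Function.ne_iff.mp n₃
    exact Function.ne_iff.mpr ⟨(i, j), mul_ne_zero hi hj⟩
  have e1 : (fun I : (Fin (r₁ + 1) ↪o Fin a) × (Fin (r₂ + 1) ↪o Fin b) × (Fin r₃ ↪o Fin c) =>
      κ * (minors (consRow l₁ A₁) I.1 * (minors (consRow l₂ A₂) I.2.1 * minors A₃ I.2.2))) =
      κ • (fun I : (Fin (r₁ + 1) ↪o Fin a) × (Fin (r₂ + 1) ↪o Fin b) × (Fin r₃ ↪o Fin c) =>
        minors (consRow l₁ A₁) I.1 * (fun q : (Fin (r₂ + 1) ↪o Fin b) × (Fin r₃ ↪o Fin c) =>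
          minors (consRow l₂ A₂) q.1 * minors A₃ q.2) I.2) := by
    funext I
    simp [Pi.smul_apply, smul_eq_mul]
  rw [hYm, e1, H.smul _ hκ, H.mul _ _ n₁ n₂₃, H.mul _ _ n₂ n₃, Hsub_eq H h₁', Hsub_eq H h₂',
    Hsub_eq H h₃, add_assoc]

/-- **(Ale) abstract**: upper bound, no closed sets. -/
theorem abs_A_le :
    ∃ C : ℝ, ∀ (U₁ U₁' : Submodule K (Fin a → K)) (U₂ U₂' : Submodule K (Fin b → K))
      (U₃ U₃' : Submodule K (Fin c → K)), YData μ U₁ U₁' U₂ U₂' U₃ U₃' →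
      Hsub H U₁' + Hsub H U₂' + Hsub H U₃ ≤ Hsub H U₃' + Hsub H U₁ + Hsub H U₂ + C := by
  have key : ∀ r : ℕ × ℕ × ℕ, ∃ C : ℝ, ∀ (x₁ : (Fin (r.2.2 + 1) ↪o Fin c) → K)
      (x₂ : (Fin r.1 ↪o Fin a) → K) (x₃ : (Fin r.2.1 ↪o Fin b) → K), x₁ ≠ 0 → x₂ ≠ 0 → x₃ ≠ 0 →
      H.h (Ymap μ x₁ x₂ x₃) ≤
        ((1 : ℕ) : ℝ) * H.h x₁ + ((1 : ℕ) : ℝ) * H.h x₂ + ((1 : ℕ) : ℝ) * H.h x₃ + C := fun r =>
    TP3_upper H (Ymap μ) (absA_isPolyFun_Ymap μ) 1 1 1 (absA_Ymap_smul μ)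
  choose Cf hCf using key
  refine ⟨∑ r ∈ Finset.range (a + 1) ×ˢ Finset.range (b + 1) ×ˢ Finset.range (c + 1), |Cf r|,
    fun U₁ U₁' U₂ U₂' U₃ U₃' hY => ?_⟩
  obtain ⟨r₁, A₁, h₁⟩ := exists_isCut U₁
  obtain ⟨r₂, A₂, h₂⟩ := exists_isCut U₂
  obtain ⟨r₃, A₃, h₃⟩ := exists_isCut U₃
  obtain ⟨l₁, h₁'⟩ := h₁.exists_consRow hY.le₁ hY.fr₁
  obtain ⟨l₂, h₂'⟩ := h₂.exists_consRow hY.le₂ hY.fr₂
  obtain ⟨l₃, h₃'⟩ := h₃.exists_consRow hY.le₃ hY.fr₃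
  have hh := absA_height_Ymap H μ hY h₁ h₂ h₃ h₁' h₂' h₃'
  have hb := hCf (r₁, r₂, r₃) _ _ _ h₃'.minors_ne_zero h₁.minors_ne_zero h₂.minors_ne_zero
  have hmem : (r₁, r₂, r₃) ∈
      Finset.range (a + 1) ×ˢ Finset.range (b + 1) ×ˢ Finset.range (c + 1) := by
    have f₁ := h₁.finrank_add
    have f₂ := h₂.finrank_add
    have f₃ := h₃.finrank_add
    simp only [Finset.mem_product, Finset.mem_range]
    omega
  have hC : Cf (r₁, r₂, r₃) ≤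
      ∑ r ∈ Finset.range (a + 1) ×ˢ Finset.range (b + 1) ×ˢ Finset.range (c + 1), |Cf r| :=
    (le_abs_self _).trans
      (Finset.single_le_sum (f := fun r => |Cf r|) (fun r _ => abs_nonneg _) hmem)
  rw [hh] at hb
  rw [Hsub_eq H h₃', Hsub_eq H h₁, Hsub_eq H h₂]
  simp only [Nat.cast_one, one_mul] at hb
  linarith

/-- **(Age) abstract**: lower bound on closed cones `Z₁`, `Z₂`. -/
theorem abs_A_ge {r₁ r₂ r₃ : ℕ} (Z₁ : Set ((Fin r₁ ↪o Fin a) → K)) (Z₂ : Set ((Fin r₂ ↪o Fin b) → K))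
    (hZ₁ : IsZClosed Z₁) (hZ₂ : IsZClosed Z₂) (hc₁ : IsCone Z₁) (hc₂ : IsCone Z₂)
    (hbig : ∀ p₁ ∈ Z₁, ∀ p₂ ∈ Z₂, p₁ ≠ 0 → p₂ ≠ 0 →
      c ≤ finrank K (mulSpan μ (Submodule.span K (Set.range (kerVecP p₁)))
        (Submodule.span K (Set.range (kerVecP p₂)))) + r₃) :
    ∃ C : ℝ, ∀ (U₁ U₁' : Submodule K (Fin a → K)) (U₂ U₂' : Submodule K (Fin b → K))
      (U₃ U₃' : Submodule K (Fin c → K)), YData μ U₁ U₁' U₂ U₂' U₃ U₃' →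
      ∀ (A₁ : Matrix (Fin r₁) (Fin a) K) (A₂ : Matrix (Fin r₂) (Fin b) K), IsCut A₁ U₁ → IsCut A₂ U₂ →
      minors A₁ ∈ Z₁ → minors A₂ ∈ Z₂ → finrank K U₃ + r₃ = c →
      Hsub H U₃' + Hsub H U₁ + Hsub H U₂ ≤ Hsub H U₁' + Hsub H U₂' + Hsub H U₃ + C := by
  obtain ⟨C, hC⟩ := TP3_lower H (Ymap (r₁ := r₁) (r₂ := r₂) (r₃ := r₃) μ) (absA_isPolyFun_Ymap μ)
    1 1 1 (absA_Ymap_smul μ) Set.univ Z₁ Z₂ IsZClosed.univ hZ₁ hZ₂
    (fun _ _ _ => Set.mem_univ _) hc₁ hc₂ (by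
      intro p₃' _ p₁ hp₁ p₂ hp₂ n₃ n₁ n₂ h0
      have h1 := finrank_contr_eq_zero_le p₃' n₃ _ (absA_contr_eq_zero μ p₃' p₁ p₂ h0)
      have h2 := hbig p₁ hp₁ p₂ hp₂ n₁ n₂
      omega)
  refine ⟨C, fun U₁ U₁' U₂ U₂' U₃ U₃' hY A₁ A₂ h₁ h₂ hz₁ hz₂ hfr => ?_⟩
  obtain ⟨r, A₃, h₃⟩ := exists_isCut U₃
  obtain rfl : r = r₃ := by
    have := h₃.finrank_add
    omega
  obtain ⟨l₁, h₁'⟩ := h₁.exists_consRow hY.le₁ hY.fr₁
  obtain ⟨l₂, h₂'⟩ := h₂.exists_consRow hY.le₂ hY.fr₂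
  obtain ⟨l₃, h₃'⟩ := h₃.exists_consRow hY.le₃ hY.fr₃
  have hh := absA_height_Ymap H μ hY h₁ h₂ h₃ h₁' h₂' h₃'
  have hb := hC _ (Set.mem_univ (minors (consRow l₃ A₃))) _ hz₁ _ hz₂ h₃'.minors_ne_zero
    h₁.minors_ne_zero h₂.minors_ne_zero
  rw [hh] at hb
  rw [Hsub_eq H h₃', Hsub_eq H h₁, Hsub_eq H h₂]
  simp only [Nat.cast_one, one_mul] at hb
  linarith

end Abs

end Fermat.Agent.S17.TP
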