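import Fermat.Agent.S17.TP.Zariski

/-!
# S17 / TP : determinantal sets `{rank ≤ D}` are Zariski closed
-/

set_option autoImplicit false

namespace Fermat.Agent.S17.TP

variable {K : Type} [Field K]

/-- A matrix of rank `≥ d` has `d` linearly independent rows. -/
theorem rankClosed_exists_rows {m n : Type*} [Fintype m] [Fintype n] (A : Matrix m n K) (d : ℕ)
    (h : d ≤ A.rank) : ∃ r : Fin d → m, LinearIndependent K (A.submatrix r id).row := by
  obtain ⟨f, hf, -, hli⟩ := Submodule.exists_fun_fin_finrank_span_eq K (Set.range A.row)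
  rw [A.rank_eq_finrank_span_row] at h
  choose r hr using hf
  refine ⟨fun i => r (Fin.castLE h i), ?_⟩
  have h1 : (A.submatrix (fun i => r (Fin.castLE h i)) id).row = f ∘ Fin.castLE h := by
    funext i
    exact hr (Fin.castLE h i)
  rw [h1]
  exact hli.comp _ (Fin.castLE_injective h)

/-- The rank of a matrix is `≤ D` iff all its `(D+1) × (D+1)` minors vanish. -/
theorem rank_le_iff_forall_det_eq_zero {m n : Type*} [Fintype m] [Fintype n] (A : Matrix m n K)
    (D : ℕ) : A.rank ≤ D ↔
      ∀ (r : Fin (D + 1) → m) (c : Fin (D + 1) → n), (A.submatrix r c).det = 0 := by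
  constructor
  · intro h r c
    by_contra hdet
    have h1 : (A.submatrix r c).rank = Fintype.card (Fin (D + 1)) :=
      Matrix.rank_of_isUnit _ ((Matrix.isUnit_iff_isUnit_det _).2 (isUnit_iff_ne_zero.2 hdet))
    have h2 := A.rank_submatrix_le r c
    rw [h1, Fintype.card_fin] at h2
    omega
  · intro h
    by_contra hlt
    have hD : D + 1 ≤ A.rank := by omega
    obtain ⟨r, hr⟩ := rankClosed_exists_rows A (D + 1) hD
    have h1 : (A.submatrix r id).rank = D + 1 := by
      rw [hr.rank_matrix, Fintype.card_fin]
    have h2 : D + 1 ≤ ((A.submatrix r id).transpose).rank := by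
      rw [Matrix.rank_transpose, h1]
    obtain ⟨c, hc⟩ := rankClosed_exists_rows _ (D + 1) h2
    have h3 : IsUnit (((A.submatrix r id).transpose).submatrix c id) :=
      Matrix.linearIndependent_rows_iff_isUnit.1 hc
    have h4 : (((A.submatrix r id).transpose).submatrix c id).det ≠ 0 :=
      isUnit_iff_ne_zero.1 ((Matrix.isUnit_iff_isUnit_det _).1 h3)
    apply h4
    have h5 : ((A.submatrix r id).transpose).submatrix c id = (A.submatrix r c).transpose := by
      ext i j
      rfl
    rw [h5, Matrix.det_transpose]
    exact h r c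

variable {σ : Type}

/-- determinantal sets are closed -/
theorem IsZClosed.rank_le {m n : Type} [Fintype m] [Fintype n] {M : (σ → K) → Matrix m n K}
    (hM : ∀ i j, IsPolyFun (fun x => M x i j)) (D : ℕ) : IsZClosed {x | (M x).rank ≤ D} := by
  choose P hP using hM
  refine ⟨Set.range fun rc : (Fin (D + 1) → m) × (Fin (D + 1) → n) =>
    ((Matrix.of P).submatrix rc.1 rc.2).det, ?_⟩
  ext x
  have key : ∀ (r : Fin (D + 1) → m) (c : Fin (D + 1) → n),
      MvPolynomial.eval x ((Matrix.of P).submatrix r c).det = ((M x).submatrix r c).det := by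
    intro r c
    rw [RingHom.map_det]
    congr 1
    ext i j
    exact (hP (r i) (c j) x).symm
  simp only [Set.mem_ofPred_eq, Set.forall_mem_range, Prod.forall, key]
  exact rank_le_iff_forall_det_eq_zero (M x) D

end Fermat.Agent.S17.TP
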