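import Fermat.Agent.S17.TP.AbsPoly
import Fermat.Agent.S17.TP.PLIdent
import Fermat.Agent.S17.TP.RankClosed

/-!
# S17 / TP : the cone `Zcone` is Zariski closed  (task S17-AbsZ)
-/

set_option autoImplicit false

noncomputable section

namespace Fermat.Agent.S17.TP

open Fermat.Agent.S17 Matrix Module

variable {K : Type} [Field K] {a : ℕ}

/-- the matrix whose rows span `mulSpan ν (span (range (kerVecP p))) ⊤` -/
def absZMat {r e f : ℕ} (ν : (Fin a → K) →ₗ[K] (Fin e → K) →ₗ[K] (Fin f → K))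
    (p : (Fin r ↪o Fin a) → K) : Matrix ((Fin (r + 1) ↪o Fin a) × Fin e) (Fin f) K :=
  fun Tj k => ν (kerVecP p Tj.1) (Pi.single Tj.2 1) k

theorem absZ_mulSpan_eq {r e f : ℕ} (ν : (Fin a → K) →ₗ[K] (Fin e → K) →ₗ[K] (Fin f → K))
    (p : (Fin r ↪o Fin a) → K) :
    mulSpan ν (Submodule.span K (Set.range (kerVecP p))) ⊤ =
      Submodule.span K (Set.range (absZMat ν p).row) := by
  have htop : (⊤ : Submodule K (Fin e → K)) =
      Submodule.span K (Set.range fun j : Fin e => (Pi.single j (1 : K) : Fin e → K)) := by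
    have := (Pi.basisFun K (Fin e)).span_eq
    rw [← this]
    congr 2
    funext j
    simp
  unfold mulSpan
  rw [htop, Submodule.map₂_span_span]
  congr 1
  ext x
  constructor
  · rintro ⟨_, ⟨T, rfl⟩, _, ⟨j, rfl⟩, rfl⟩
    exact ⟨(T, j), rfl⟩
  · rintro ⟨⟨T, j⟩, rfl⟩
    exact ⟨_, ⟨T, rfl⟩, _, ⟨j, rfl⟩, rfl⟩

theorem isZClosed_Zcone {r e f : ℕ} (ν : (Fin a → K) →ₗ[K] (Fin e → K) →ₗ[K] (Fin f → K)) (D : ℕ) :
    IsZClosed (Zcone (r := r) ν D) := by
  have h : Zcone (r := r) ν D = {p | (absZMat ν p).rank ≤ D} := by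
    ext p
    show finrank K _ ≤ D ↔ (absZMat ν p).rank ≤ D
    rw [absZ_mulSpan_eq, Matrix.rank_eq_finrank_span_row]
  rw [h]
  refine IsZClosed.rank_le (fun Tj k => ?_) D
  exact absA_isPolyFun_mu ν (u := fun x => kerVecP x Tj.1)
    (v := fun _ => (Pi.single Tj.2 (1 : K) : Fin e → K))
    (fun i => absA_isPolyFun_kerVecP (fun S => IsPolyFun.coord S) Tj.1 i)
    (fun i => IsPolyFun.const _) k

theorem isCone_Zcone {r e f : ℕ} (ν : (Fin a → K) →ₗ[K] (Fin e → K) →ₗ[K] (Fin f → K)) (D : ℕ) :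
    IsCone (Zcone (r := r) ν D) := by
  intro c p hp
  have h1 : Submodule.span K (Set.range (kerVecP (c • p))) ≤
      Submodule.span K (Set.range (kerVecP p)) := by
    rw [Submodule.span_le]
    rintro _ ⟨T, rfl⟩
    rw [kerVecP_smul]
    exact Submodule.smul_mem _ _ (Submodule.subset_span ⟨T, rfl⟩)
  have h2 : mulSpan ν (Submodule.span K (Set.range (kerVecP (c • p)))) ⊤ ≤
      mulSpan ν (Submodule.span K (Set.range (kerVecP p))) ⊤ :=
    Submodule.map₂_le_map₂_left h1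
  exact (Submodule.finrank_mono h2).trans hp

end Fermat.Agent.S17.TP
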