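import Mathlib

/-!
# S17 / TP : abstract projective logarithmic heights

`HeightFn K` bundles the only properties of the absolute logarithmic height on tuples of elements
of `K = Qbar` that the TP route uses.  Block HT0 constructs `HeightFn (AlgebraicClosure ℚ)`.
All index types live in `Type`.
-/

set_option autoImplicit false

namespace Fermat.Agent.S17.TP

/-- An abstract projective logarithmic height on finite tuples. -/
structure HeightFn (K : Type) [Field K] where
  /-- the height of a tuple (junk value `0` at the zero tuple) -/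
  h : ∀ {ι : Type}, (ι → K) → ℝ
  nonneg : ∀ {ι : Type} [Finite ι] (x : ι → K), 0 ≤ h x
  zero : ∀ {ι : Type} [Finite ι], h (0 : ι → K) = 0
  smul : ∀ {ι : Type} [Finite ι] (x : ι → K) {c : K}, c ≠ 0 → h (c • x) = h x
  comp_equiv : ∀ {ι ι' : Type} [Finite ι] [Finite ι'] (e : ι ≃ ι') (x : ι' → K), h (x ∘ e) = h x
  /-- changing signs of coordinates does not change the height -/
  sign : ∀ {ι : Type} [Finite ι] (x y : ι → K), (∀ i, y i = x i ∨ y i = - x i) → h y = h x
  /-- a subtuple has smaller height (also if it vanishes, by the junk value) -/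
  comp_le : ∀ {ι ι' : Type} [Finite ι] [Finite ι'] (f : ι → ι') (x : ι' → K), h (x ∘ f) ≤ h x
  pow : ∀ {ι : Type} [Finite ι] (x : ι → K) (n : ℕ), h (fun i => x i ^ n) = n * h x
  /-- Segre: the height of a tensor product of nonzero tuples is the sum of the heights -/
  prod : ∀ {α : Type} [Fintype α] {ι : α → Type} [∀ a, Finite (ι a)] (x : (a : α) → ι a → K),
    (∀ a, x a ≠ 0) → h (fun I : (a : α) → ι a => ∏ a, x a (I a)) = ∑ a, h (x a)
  mul : ∀ {ι ι' : Type} [Finite ι] [Finite ι'] (x : ι → K) (y : ι' → K), x ≠ 0 → y ≠ 0 →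
    h (fun p : ι × ι' => x p.1 * y p.2) = h x + h y
  /-- a fixed linear map increases the height by at most a constant -/
  linear : ∀ {ι ι' : Type} [Fintype ι] [Finite ι'] (A : ι' → ι → K),
    ∃ C : ℝ, ∀ x : ι → K, h (fun j => ∑ i, A j i * x i) ≤ h x + C

end Fermat.Agent.S17.TP
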