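import Fermat.Agent.S17.TP.PLDefs

/-!
# S17 / TP : definitions for the abstract height lemmas (Y), (Ale), (Age)
-/

set_option autoImplicit false

noncomputable section

namespace Fermat.Agent.S17.TP

open Fermat.Agent.S17 Matrix Module

variable {K : Type} [Field K] {a b c : ℕ}
  (μ : (Fin a → K) →ₗ[K] (Fin b → K) →ₗ[K] (Fin c → K))

/-- the hypotheses of Lemma Y -/
structure YData (U₁ U₁' : Submodule K (Fin a → K)) (U₂ U₂' : Submodule K (Fin b → K))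
    (U₃ U₃' : Submodule K (Fin c → K)) : Prop where
  le₁ : U₁' ≤ U₁
  le₂ : U₂' ≤ U₂
  le₃ : U₃' ≤ U₃
  fr₁ : finrank K U₁' + 1 = finrank K U₁
  fr₂ : finrank K U₂' + 1 = finrank K U₂
  fr₃ : finrank K U₃' + 1 = finrank K U₃
  mul : mulSpan μ U₁ U₂ ≤ U₃
  mul₁ : mulSpan μ U₁' U₂ ≤ U₃'
  mul₂ : mulSpan μ U₁ U₂' ≤ U₃'
  not_le : ¬ mulSpan μ U₁ U₂ ≤ U₃'

/-- the trilinear map -/
def Ymap {r₁ r₂ r₃ : ℕ} (p₃' : (Fin (r₃ + 1) ↪o Fin c) → K) (p₁ : (Fin r₁ ↪o Fin a) → K)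
    (p₂ : (Fin r₂ ↪o Fin b) → K) :
    (Fin (r₁ + 1) ↪o Fin a) × (Fin (r₂ + 1) ↪o Fin b) × (Fin r₃ ↪o Fin c) → K :=
  fun I => contr p₃' (μ (kerVecP p₁ I.1) (kerVecP p₂ I.2.1)) I.2.2

/-- the closed cone used for `Z₁`, `Z₂` (file TP/AbsZ.lean): `ν` = multiplication by the auxiliary level `k`. -/
def Zcone {r e f : ℕ} (ν : (Fin a → K) →ₗ[K] (Fin e → K) →ₗ[K] (Fin f → K)) (D : ℕ) :
    Set ((Fin r ↪o Fin a) → K) :=
  {p | finrank K (mulSpan ν (Submodule.span K (Set.range (kerVecP p))) ⊤) ≤ D}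

end Fermat.Agent.S17.TP
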