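import Mathlib

/-!
# S17 / TP : polynomial functions and Zariski closed subsets of `σ → K` (definitions only)
-/

set_option autoImplicit false

namespace Fermat.Agent.S17.TP

variable {K : Type} [Field K]

/-- `f` is a polynomial function of the coordinates. -/
def IsPolyFun {σ : Type} (f : (σ → K) → K) : Prop :=
  ∃ P : MvPolynomial σ K, ∀ x, f x = MvPolynomial.eval x P

/-- `Z` is the set of common zeros of a family of polynomials. -/
def IsZClosed {σ : Type} (Z : Set (σ → K)) : Prop :=
  ∃ S : Set (MvPolynomial σ K), Z = {x | ∀ P ∈ S, MvPolynomial.eval x P = 0}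

/-- `Z` is stable under all homotheties (including `0`). -/
def IsCone {σ : Type} (Z : Set (σ → K)) : Prop := ∀ (c : K) (x : σ → K), x ∈ Z → c • x ∈ Z

/-- multiply the block `b ⁻¹ {k}` of coordinates by `c k` -/
def blockSMul {σ κ : Type} (b : σ → κ) (c : κ → K) (x : σ → K) : σ → K := fun s => c (b s) * x s

/-- the `k`-th block of coordinates -/
def block {σ κ : Type} (b : σ → κ) (x : σ → K) (k : κ) : {s // b s = k} → K := fun s => x s

/-- glue three tuples -/
def glue3 {ι₁ ι₂ ι₃ : Type} (x₁ : ι₁ → K) (x₂ : ι₂ → K) (x₃ : ι₃ → K) : ι₁ ⊕ ι₂ ⊕ ι₃ → K :=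
  Sum.elim x₁ (Sum.elim x₂ x₃)

end Fermat.Agent.S17.TP
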