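import Mathlib
import Fermat.Agent.S17.TP.Zariski

/-!
# S17 / TP : closure API for `IsPolyFun` and `IsZClosed` (task S17-TP1, helper233)
-/

set_option autoImplicit false

namespace Fermat.Agent.S17.TP

variable {K : Type} [Field K]

section PolyFun
variable {σ : Type}

theorem IsPolyFun.const (a : K) : IsPolyFun (fun _ : σ → K => a) :=
  ⟨MvPolynomial.C a, fun x => by simp⟩

theorem IsPolyFun.coord (s : σ) : IsPolyFun (fun x : σ → K => x s) :=
  ⟨MvPolynomial.X s, fun x => by simp⟩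

theorem IsPolyFun.add {f g : (σ → K) → K} (hf : IsPolyFun f) (hg : IsPolyFun g) :
    IsPolyFun (fun x => f x + g x) := by
  obtain ⟨P, hP⟩ := hf
  obtain ⟨Q, hQ⟩ := hg
  exact ⟨P + Q, fun x => by simp only [map_add, hP, hQ]⟩

theorem IsPolyFun.neg {f : (σ → K) → K} (hf : IsPolyFun f) : IsPolyFun (fun x => - f x) := by
  obtain ⟨P, hP⟩ := hf
  exact ⟨-P, fun x => by simp only [map_neg, hP]⟩

theorem IsPolyFun.sub {f g : (σ → K) → K} (hf : IsPolyFun f) (hg : IsPolyFun g) :
    IsPolyFun (fun x => f x - g x) := by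
  obtain ⟨P, hP⟩ := hf
  obtain ⟨Q, hQ⟩ := hg
  exact ⟨P - Q, fun x => by simp only [map_sub, hP, hQ]⟩

theorem IsPolyFun.mul {f g : (σ → K) → K} (hf : IsPolyFun f) (hg : IsPolyFun g) :
    IsPolyFun (fun x => f x * g x) := by
  obtain ⟨P, hP⟩ := hf
  obtain ⟨Q, hQ⟩ := hg
  exact ⟨P * Q, fun x => by simp only [map_mul, hP, hQ]⟩

theorem IsPolyFun.pow {f : (σ → K) → K} (hf : IsPolyFun f) (n : ℕ) :
    IsPolyFun (fun x => f x ^ n) := by
  obtain ⟨P, hP⟩ := hf
  exact ⟨P ^ n, fun x => by simp only [map_pow, hP]⟩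

theorem IsPolyFun.sum {α : Type} (s : Finset α) {f : α → (σ → K) → K}
    (hf : ∀ a ∈ s, IsPolyFun (f a)) : IsPolyFun (fun x => ∑ a ∈ s, f a x) := by
  classical
  induction s using Finset.induction_on with
  | empty => simpa using IsPolyFun.const (σ := σ) (0 : K)
  | insert a s ha ih =>
    have h1 := (hf a (Finset.mem_insert_self a s)).add
      (ih fun b hb => hf b (Finset.mem_insert_of_mem hb))
    simpa [Finset.sum_insert ha] using h1

theorem IsPolyFun.prod {α : Type} (s : Finset α) {f : α → (σ → K) → K}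
    (hf : ∀ a ∈ s, IsPolyFun (f a)) : IsPolyFun (fun x => ∏ a ∈ s, f a x) := by
  classical
  induction s using Finset.induction_on with
  | empty => simpa using IsPolyFun.const (σ := σ) (1 : K)
  | insert a s ha ih =>
    have h1 := (hf a (Finset.mem_insert_self a s)).mul
      (ih fun b hb => hf b (Finset.mem_insert_of_mem hb))
    simpa [Finset.prod_insert ha] using h1

theorem IsPolyFun.ite {p : Prop} [Decidable p] {f g : (σ → K) → K} (hf : IsPolyFun f)
    (hg : IsPolyFun g) : IsPolyFun (fun x => if p then f x else g x) := by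
  by_cases h : p
  · simpa [h] using hf
  · simpa [h] using hg

theorem IsPolyFun.det {n : Type} [Fintype n] [DecidableEq n] {M : (σ → K) → Matrix n n K}
    (hM : ∀ i j, IsPolyFun (fun x => M x i j)) : IsPolyFun (fun x => (M x).det) := by
  choose P hP using hM
  refine ⟨(Matrix.of P).det, fun x => ?_⟩
  rw [RingHom.map_det]
  have h : M x = (MvPolynomial.eval x).mapMatrix (Matrix.of P) := by
    ext i j
    exact hP i j x
  show (M x).det = _
  rw [h]

/-- composition with a polynomial map -/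
theorem IsPolyFun.comp {σ' : Type} {f : (σ' → K) → K} (hf : IsPolyFun f)
    {g : (σ → K) → σ' → K} (hg : ∀ s, IsPolyFun (fun x => g x s)) :
    IsPolyFun (fun x => f (g x)) := by
  obtain ⟨P, hP⟩ := hf
  choose Q hQ using hg
  refine ⟨MvPolynomial.bind₁ Q P, fun x => ?_⟩
  show f (g x) = _
  have h : g x = fun s => MvPolynomial.eval x (Q s) := funext fun s => hQ s x
  rw [hP, h, ← MvPolynomial.aeval_eq_eval, ← MvPolynomial.aeval_eq_eval,
    MvPolynomial.aeval_bind₁]

theorem IsZClosed.univ : IsZClosed (Set.univ : Set (σ → K)) :=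
  ⟨∅, by simp⟩

theorem IsZClosed.inter {Z Z' : Set (σ → K)} (h : IsZClosed Z) (h' : IsZClosed Z') :
    IsZClosed (Z ∩ Z') := by
  obtain ⟨S, rfl⟩ := h
  obtain ⟨S', rfl⟩ := h'
  refine ⟨S ∪ S', ?_⟩
  ext x
  simp only [Set.mem_inter_iff, Set.mem_ofPred_eq, Set.mem_union]
  constructor
  · rintro ⟨h1, h2⟩ P (hP | hP)
    · exact h1 P hP
    · exact h2 P hP
  · intro h
    exact ⟨fun P hP => h P (Or.inl hP), fun P hP => h P (Or.inr hP)⟩

theorem IsZClosed.setOf_eq_zero {α : Type} {f : α → (σ → K) → K} (hf : ∀ a, IsPolyFun (f a)) :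
    IsZClosed {x | ∀ a, f a x = 0} := by
  choose P hP using hf
  refine ⟨Set.range P, ?_⟩
  ext x
  simp only [Set.mem_ofPred_eq, Set.forall_mem_range, hP]

theorem IsZClosed.preimage {σ' : Type} {Z : Set (σ' → K)} (h : IsZClosed Z)
    {g : (σ → K) → σ' → K} (hg : ∀ s, IsPolyFun (fun x => g x s)) : IsZClosed (g ⁻¹' Z) := by
  obtain ⟨S, rfl⟩ := h
  have h1 : g ⁻¹' {x | ∀ P ∈ S, MvPolynomial.eval x P = 0} =
      {x | ∀ P : S, MvPolynomial.eval (g x) (P : MvPolynomial σ' K) = 0} := by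
    ext x
    simp
  rw [h1]
  exact IsZClosed.setOf_eq_zero (f := fun (P : S) x => MvPolynomial.eval (g x) (P : MvPolynomial σ' K))
    fun P => IsPolyFun.comp (f := fun y => MvPolynomial.eval y (P : MvPolynomial σ' K))
      ⟨P, fun _ => rfl⟩ hg

end PolyFun

end Fermat.Agent.S17.TP
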