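import Fermat.Agent.S17.TP.AbsDefs
import Fermat.Agent.S17.TP.PolyFun

/-!
# S17 / TP : the coordinates of `kerVecP`, `contr` and of a bilinear map are polynomial functions
(shared by `TP/AbsA.lean` and `TP/AbsZ.lean`)
-/

set_option autoImplicit false

noncomputable section

namespace Fermat.Agent.S17.TP

open Fermat.Agent.S17 Matrix Module

variable {K : Type} [Field K] {a b c : ℕ}
  (μ : (Fin a → K) →ₗ[K] (Fin b → K) →ₗ[K] (Fin c → K))

theorem absA_mu_apply (u : Fin a → K) (v : Fin b → K) (k : Fin c) :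
    μ u v k = ∑ i, ∑ j, u i * v j * μ (Pi.single i 1) (Pi.single j 1) k := by
  have hu : u = ∑ i, u i • (Pi.single i (1 : K) : Fin a → K) := by
    ext k
    simp [Finset.sum_apply, Pi.single_apply]
  have hv : v = ∑ j, v j • (Pi.single j (1 : K) : Fin b → K) := by
    ext k
    simp [Finset.sum_apply, Pi.single_apply]
  calc μ u v k
      = μ (∑ i, u i • (Pi.single i (1 : K) : Fin a → K))
          (∑ j, v j • (Pi.single j (1 : K) : Fin b → K)) k := by rw [← hu, ← hv]
    _ = ∑ i, ∑ j, u i * v j * μ (Pi.single i 1) (Pi.single j 1) k := by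
      rw [map_sum, Finset.sum_apply, Finset.sum_comm]
      refine Finset.sum_congr rfl fun j _ => ?_
      rw [map_sum, LinearMap.sum_apply, Finset.sum_apply]
      refine Finset.sum_congr rfl fun i _ => ?_
      rw [map_smul, map_smul, LinearMap.smul_apply, Pi.smul_apply, Pi.smul_apply, smul_eq_mul,
        smul_eq_mul]
      ring

theorem absA_isPolyFun_kerVecP {σ : Type} {n d : ℕ} {p : (σ → K) → (Fin n ↪o Fin d) → K}
    (hp : ∀ S, IsPolyFun (fun x => p x S)) (T : Fin (n + 1) ↪o Fin d) (k : Fin d) :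
    IsPolyFun (fun x => kerVecP (p x) T k) := by
  unfold kerVecP
  refine IsPolyFun.sum _ fun i _ => IsPolyFun.ite ?_ (IsPolyFun.const 0)
  exact (IsPolyFun.const _).mul (hp _)

theorem absA_isPolyFun_contr {σ : Type} {n d : ℕ} {p : (σ → K) → (Fin (n + 1) ↪o Fin d) → K}
    (hp : ∀ S, IsPolyFun (fun x => p x S)) {v : (σ → K) → Fin d → K}
    (hv : ∀ k, IsPolyFun (fun x => v x k)) (S : Fin n ↪o Fin d) :
    IsPolyFun (fun x => contr (p x) (v x) S) := by
  unfold contr
  refine IsPolyFun.sum _ fun T _ => IsPolyFun.sum _ fun i _ =>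
    IsPolyFun.ite ?_ (IsPolyFun.const 0)
  exact ((IsPolyFun.const _).mul (hv _)).mul (hp _)

theorem absA_isPolyFun_mu {σ : Type} {u : (σ → K) → Fin a → K} {v : (σ → K) → Fin b → K}
    (hu : ∀ k, IsPolyFun (fun x => u x k)) (hv : ∀ k, IsPolyFun (fun x => v x k)) (k : Fin c) :
    IsPolyFun (fun x => μ (u x) (v x) k) := by
  have e : (fun x => μ (u x) (v x) k) =
      fun x => ∑ i, ∑ j, u x i * v x j * μ (Pi.single i 1) (Pi.single j 1) k :=
    funext fun x => absA_mu_apply μ _ _ k
  rw [e]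
  refine IsPolyFun.sum _ fun i _ => IsPolyFun.sum _ fun j _ => ?_
  exact ((hu i).mul (hv j)).mul (IsPolyFun.const _)

end Fermat.Agent.S17.TP
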