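import Fermat.Agent.S17.TP.PLDefs

/-!
# S17 / TP / PL7 : compound matrices are functorial (general Cauchy-Binet)
-/

set_option autoImplicit false

noncomputable section

namespace Fermat.Agent.S17.TP

open Fermat.Agent.S17 Matrix

variable {R : Type} [CommRing R]

/-- PL7 (general Cauchy-Binet). -/
theorem compound_mul (w : ℕ) {a b c : ℕ} (M : Matrix (Fin a) (Fin b) R)
    (N : Matrix (Fin b) (Fin c) R) : compound w (M * N) = compound w M * compound w N := by
  ext S T
  have h : (M * N).submatrix S T = (M.submatrix S id) * (N.submatrix id T) := by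
    ext i j
    simp [Matrix.mul_apply]
  rw [Matrix.mul_apply]
  show ((M * N).submatrix S T).det = _
  rw [h, det_mul_eq_sum_minors]
  rfl

theorem compound_one (w a : ℕ) : compound w (1 : Matrix (Fin a) (Fin a) R) = 1 := by
  ext S T
  show ((1 : Matrix (Fin a) (Fin a) R).submatrix S T).det = _
  by_cases hST : S = T
  · subst hST
    rw [Matrix.submatrix_one S S.injective, Matrix.det_one, Matrix.one_apply_eq]
  · rw [Matrix.one_apply_ne hST]
    have hex : ∃ i, S i ∉ Set.range T := by
      by_contra hcon
      push Not at hcon
      apply hST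
      apply DFunLike.coe_injective
      rw [← StrictMono.range_inj S.strictMono T.strictMono]
      have hsub : Set.range S ⊆ Set.range T := by
        rintro _ ⟨i, rfl⟩
        exact hcon i
      refine Set.eq_of_subset_of_ncard_le hsub ?_ (Set.toFinite _)
      rw [Set.ncard_range_of_injective T.injective, Set.ncard_range_of_injective S.injective]
    obtain ⟨i, hi⟩ := hex
    refine Matrix.det_eq_zero_of_row_eq_zero i fun j => ?_
    rw [Matrix.submatrix_apply, Matrix.one_apply_ne]
    intro h
    exact hi ⟨j, h.symm⟩

theorem minors_mul_eq_vecMul_compound {w a b : ℕ} (B : Matrix (Fin w) (Fin a) R)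
    (M : Matrix (Fin a) (Fin b) R) : minors (B * M) = minors B ᵥ* compound w M := by
  funext T
  rw [minors_mul]
  rfl

end Fermat.Agent.S17.TP
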