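import Fermat.Agent.S17.TP.PLHsub
import Fermat.Agent.S17.TP.PLCompound
import Fermat.Agent.S17.TP.Three
import Fermat.Agent.S17.TP.AbsPoly

/-!
# S17 / TP : the abstract height lemma (M):  `H(tU) = H(U) + dim U * h(t) + O(1)`
-/

set_option autoImplicit false

noncomputable section

namespace Fermat.Agent.S17.TP

open Fermat.Agent.S17 Matrix Module

section Aux

variable {K : Type} [Field K] {a b c : ℕ}
  (μ : (Fin a → K) →ₗ[K] (Fin b → K) →ₗ[K] (Fin c → K))

/-- the matrix of `x ↦ μ x t` (acting on row vectors) -/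
def absMMat (t : Fin b → K) : Matrix (Fin a) (Fin c) K := fun i j => μ (Pi.single i 1) t j

theorem absM_vecMul (x : Fin a → K) (t : Fin b → K) : x ᵥ* absMMat μ t = μ x t := by
  funext j
  have hx : x = ∑ i, x i • (Pi.single i (1 : K) : Fin a → K) := by
    ext k
    simp [Finset.sum_apply, Pi.single_apply]
  conv_rhs => rw [hx]
  rw [map_sum, LinearMap.sum_apply, Finset.sum_apply]
  simp only [Matrix.vecMul, dotProduct, absMMat]
  refine Finset.sum_congr rfl fun i _ => ?_
  rw [map_smul, LinearMap.smul_apply, Pi.smul_apply, smul_eq_mul]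

theorem absMMat_smul (e : K) (t : Fin b → K) : absMMat μ (e • t) = e • absMMat μ t := by
  ext i j
  simp [absMMat]

theorem compound_smul (w : ℕ) (e : K) (M : Matrix (Fin a) (Fin c) K) :
    compound w (e • M) = e ^ w • compound w M := by
  ext S T
  show ((e • M).submatrix S T).det = e ^ w * (M.submatrix S T).det
  have h : (e • M).submatrix S T = e • M.submatrix S T := rfl
  rw [h, Matrix.det_smul, Fintype.card_fin]

/-- the bihomogeneous map of bidegree `(1, w)` -/
def absMPhi (w : ℕ) (p : (Fin w ↪o Fin a) → K) (t : Fin b → K) : (Fin w ↪o Fin c) → K :=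
  p ᵥ* compound w (absMMat μ t)

theorem absMPhi_isPolyFun (w : ℕ) (T : Fin w ↪o Fin c) :
    IsPolyFun (fun x : (Fin w ↪o Fin a) ⊕ Fin b → K =>
      absMPhi μ w (fun i => x (.inl i)) (fun i => x (.inr i)) T) := by
  unfold absMPhi
  simp only [Matrix.vecMul, dotProduct]
  refine IsPolyFun.sum _ fun S _ => (IsPolyFun.coord _).mul ?_
  unfold compound
  refine IsPolyFun.det fun i j => ?_
  simp only [Matrix.submatrix_apply, absMMat]
  exact absA_isPolyFun_mu μ (σ := (Fin w ↪o Fin a) ⊕ Fin b) (u := fun _ => Pi.single (S i) 1)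
    (v := fun x k => x (Sum.inr k)) (fun k => IsPolyFun.const _)
    (fun k => IsPolyFun.coord (Sum.inr k)) (T j)

theorem absMPhi_hom (w : ℕ) (c₁ c₂ : K) (p : (Fin w ↪o Fin a) → K) (t : Fin b → K) :
    absMPhi μ w (c₁ • p) (c₂ • t) = (c₁ ^ 1 * c₂ ^ w) • absMPhi μ w p t := by
  unfold absMPhi
  rw [absMMat_smul, compound_smul, Matrix.smul_vecMul, Matrix.vecMul_smul, smul_smul, pow_one]

variable {μ}

theorem absM_injective (hμ : ∀ x t, μ x t = 0 → x = 0 ∨ t = 0) {t : Fin b → K} (ht : t ≠ 0) :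
    Function.Injective (μ.flip t) := by
  rw [injective_iff_map_eq_zero]
  intro x hx
  exact (hμ x t hx).resolve_right ht

theorem absM_linearIndependent (hμ : ∀ x t, μ x t = 0 → x = 0 ∨ t = 0) {t : Fin b → K}
    (ht : t ≠ 0) : LinearIndependent K (absMMat μ t).row := by
  rw [← Matrix.vecMul_injective_iff]
  intro x y hxy
  simp only [absM_vecMul] at hxy
  exact absM_injective hμ ht hxy

theorem absMPhi_ne_zero (hμ : ∀ x t, μ x t = 0 → x = 0 ∨ t = 0) (w : ℕ)
    {p : (Fin w ↪o Fin a) → K} (hp : p ≠ 0) {t : Fin b → K} (ht : t ≠ 0) :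
    absMPhi μ w p t ≠ 0 := by
  obtain ⟨N, hN⟩ := exists_right_inverse_of_linearIndependent_row _ (absM_linearIndependent hμ ht)
  intro h0
  apply hp
  have h1 : p ᵥ* (compound w (absMMat μ t) * compound w N) = p := by
    rw [← compound_mul, hN, compound_one, Matrix.vecMul_one]
  rw [← h1, ← Matrix.vecMul_vecMul]
  have h2 : p ᵥ* compound w (absMMat μ t) = 0 := h0
  rw [h2, Matrix.zero_vecMul]

end Aux

variable {K : Type} [Field K] [IsAlgClosed K] (H : HeightFn K) {a b c : ℕ}
  (μ : (Fin a → K) →ₗ[K] (Fin b → K) →ₗ[K] (Fin c → K))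

theorem abs_M_aux (hμ : ∀ x t, μ x t = 0 → x = 0 ∨ t = 0) (w : ℕ) :
    ∃ C : ℝ, ∀ (B : Matrix (Fin w) (Fin a) K), LinearIndependent K B.row →
      ∀ t : Fin b → K, t ≠ 0 →
      |Hsub H ((Submodule.span K (Set.range B.row)).map (μ.flip t))
        - Hsub H (Submodule.span K (Set.range B.row)) - w * H.h t| ≤ C := by
  have : Infinite K := IsAlgClosed.instInfinite
  obtain ⟨C₁, hC₁⟩ := TP2_upper H (absMPhi μ w) (absMPhi_isPolyFun μ w) 1 w (absMPhi_hom μ w)
  obtain ⟨C₂, hC₂⟩ := TP2_lower H (absMPhi μ w) (absMPhi_isPolyFun μ w) 1 w (absMPhi_hom μ w)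
    Set.univ Set.univ IsZClosed.univ IsZClosed.univ (fun _ _ _ => Set.mem_univ _)
    (fun _ _ _ => Set.mem_univ _) (fun p _ t _ hp ht => absMPhi_ne_zero hμ w hp ht)
  refine ⟨max C₁ C₂, fun B hB t ht => ?_⟩
  have hp : minors B ≠ 0 := (minors_ne_zero_iff B).2 hB
  have hrow : (B * absMMat μ t).row = fun i => μ.flip t (B.row i) := by
    funext i
    show (B * absMMat μ t) i = μ (B i) t
    rw [Matrix.mul_apply_eq_vecMul, absM_vecMul]
  have hmap : (Submodule.span K (Set.range B.row)).map (μ.flip t)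
      = Submodule.span K (Set.range (B * absMMat μ t).row) := by
    rw [Submodule.map_span, hrow, ← Set.range_comp]
    rfl
  have hind : LinearIndependent K (B * absMMat μ t).row := by
    rw [hrow]
    exact hB.map' (μ.flip t) (LinearMap.ker_eq_bot.2 (absM_injective hμ ht))
  rw [hmap, Hsub_eq_primal H _ hind, Hsub_eq_primal H _ hB, minors_mul_eq_vecMul_compound]
  have h1 := hC₁ (minors B) t hp ht
  have h2 := hC₂ (minors B) (Set.mem_univ _) t (Set.mem_univ _) hp ht
  unfold absMPhi at h1 h2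
  rw [abs_le]
  push_cast at h1 h2
  constructor
  · have := le_max_right C₁ C₂
    linarith
  · have := le_max_left C₁ C₂
    linarith

/-- **(M) abstract**. -/
theorem abs_M (hμ : ∀ x t, μ x t = 0 → x = 0 ∨ t = 0) :
    ∃ C : ℝ, ∀ (U : Submodule K (Fin a → K)) (t : Fin b → K), t ≠ 0 →
      |Hsub H (U.map (μ.flip t)) - Hsub H U - finrank K U * H.h t| ≤ C := by
  choose C hC using abs_M_aux H μ hμ
  refine ⟨∑ w ∈ Finset.range (a + 1), |C w|, fun U t ht => ?_⟩
  set w := finrank K U with hw
  have hwa : w ≤ a := by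
    have := Submodule.finrank_le U
    rwa [Module.finrank_fin_fun] at this
  let β := Module.finBasis K U
  let B : Matrix (Fin w) (Fin a) K := Matrix.of fun i => (β i : Fin a → K)
  have hBrow : B.row = fun i => U.subtype (β i) := rfl
  have hB : LinearIndependent K B.row := by
    rw [hBrow]
    exact β.linearIndependent.map' U.subtype (Submodule.ker_subtype U)
  have hspan : Submodule.span K (Set.range B.row) = U := by
    rw [hBrow]
    have : Set.range (fun i => U.subtype (β i)) = U.subtype '' Set.range β := by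
      rw [← Set.range_comp]
      rfl
    rw [this, ← Submodule.map_span, β.span_eq, Submodule.map_subtype_top]
  have h := hC w B hB t ht
  rw [hspan] at h
  refine h.trans ((le_abs_self _).trans ?_)
  exact Finset.single_le_sum (f := fun w => |C w|) (fun i _ => abs_nonneg _)
    (Finset.mem_range.2 (Nat.lt_succ_of_le hwa))

end Fermat.Agent.S17.TP
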