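import Fermat.Agent.S17.TP.Height
import Fermat.Agent.S17.TP.Zariski

/-!
# S17 / TP : multihomogeneous components (helper file for `TP/Upper.lean`, `TP/Lower.lean`)

`multiTheta b x` is the substitution `X s ↦ x s * X (b s)`; the coefficients of
`multiTheta b x P` are the values at `x` of the multihomogeneous components of `P`.
-/

set_option autoImplicit false

namespace Fermat.Agent.S17.TP

open MvPolynomial

variable {K : Type} [Field K] {σ κ : Type}

/-- value of the monomial `m` at `x` -/
noncomputable def monoVal (m : σ →₀ ℕ) (x : σ → K) : K := m.prod (fun s n => x s ^ n)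

/-- the substitution `X s ↦ x s * X (b s)` -/
noncomputable def multiTheta (b : σ → κ) (x : σ → K) :
    MvPolynomial σ K →ₐ[K] MvPolynomial κ K :=
  aeval (fun s => C (x s) * X (b s))

theorem eval_multiTheta (b : σ → κ) (x : σ → K) (c : κ → K) (P : MvPolynomial σ K) :
    eval c (multiTheta b x P) = eval (blockSMul b c x) P := by
  have h : ((aeval c : MvPolynomial κ K →ₐ[K] K).comp (multiTheta b x)) =
      aeval (blockSMul b c x) := by
    ext s
    simp [multiTheta, blockSMul, mul_comm]
  have h2 := DFunLike.congr_fun h P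
  simpa [coe_aeval_eq_eval] using h2

theorem multiTheta_monomial (b : σ → κ) (x : σ → K) (m : σ →₀ ℕ) (a : K) :
    multiTheta b x (monomial m a) = monomial (m.mapDomain b) (a * monoVal m x) := by
  classical
  rw [multiTheta, aeval_monomial]
  simp only [mul_pow, Finsupp.prod_mul]
  rw [monomial_eq (s := m.mapDomain b), Finsupp.prod_mapDomain_index (by simp) (by simp [pow_add])]
  rw [monoVal, C_mul, map_finsuppProd]
  simp only [C_pow, algebraMap_eq]
  ring

open scoped Classical in
theorem coeff_multiTheta (b : σ → κ) (x : σ → K) (P : MvPolynomial σ K) (e : κ →₀ ℕ) :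
    coeff e (multiTheta b x P) =
      ∑ m ∈ P.support, if m.mapDomain b = e then coeff m P * monoVal m x else 0 := by
  conv_lhs => rw [← support_sum_monomial_coeff P]
  rw [map_sum, coeff_sum]
  refine Finset.sum_congr rfl fun m _ => ?_
  rw [multiTheta_monomial, coeff_monomial]

theorem monoVal_eq_prod [Fintype σ] (m : σ →₀ ℕ) (x : σ → K) :
    monoVal m x = ∏ s, x s ^ m s := by
  rw [monoVal, Finsupp.prod_fintype _ _ (by simp)]

theorem mapDomain_apply_eq_sum [Fintype σ] [DecidableEq κ] (b : σ → κ) (m : σ →₀ ℕ) (k : κ) :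
    (m.mapDomain b) k = ∑ s : {s // b s = k}, m s := by
  rw [Finsupp.mapDomain, Finsupp.sum_apply, Finsupp.sum_fintype _ _ (by simp)]
  simp only [Finsupp.single_apply]
  rw [← Finset.sum_filter,
    Finset.sum_subtype (p := fun s => b s = k) (Finset.univ.filter fun s => b s = k) (by simp)]

/-- every monomial of block degree `e` is a coordinate of the tensor vector -/
theorem exists_index [Fintype σ] [Fintype κ] [DecidableEq κ] (b : σ → κ) (m : σ →₀ ℕ) :
    ∃ I : (a : Σ k, Fin ((m.mapDomain b) k)) → {s // b s = a.1},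
      ∀ x : σ → K, ∏ a, x (I a) = monoVal m x := by
  have hcard : ∀ k, Fintype.card (Σ s : {s // b s = k}, Fin (m s)) = (m.mapDomain b) k := by
    intro k
    rw [Fintype.card_sigma, mapDomain_apply_eq_sum]
    simp
  let E : ∀ k, (Σ s : {s // b s = k}, Fin (m s)) ≃ Fin ((m.mapDomain b) k) :=
    fun k => Fintype.equivFinOfCardEq (hcard k)
  refine ⟨fun a => ((E a.1).symm a.2).1, fun x => ?_⟩
  rw [Fintype.prod_sigma, monoVal_eq_prod, ← Fintype.prod_fiberwise b]
  refine Finset.prod_congr rfl fun k _ => ?_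
  rw [Equiv.prod_comp (E k).symm (fun p : (Σ s : {s // b s = k}, Fin (m s)) => x p.1),
    Fintype.prod_sigma]
  simp

theorem exists_index' [Fintype σ] [Fintype κ] [DecidableEq κ] (b : σ → κ) (m : σ →₀ ℕ)
    (e : κ →₀ ℕ) (h : m.mapDomain b = e) :
    ∃ I : (a : Σ k, Fin (e k)) → {s // b s = a.1},
      ∀ x : σ → K, ∏ a, x (I a) = monoVal m x := by
  subst h
  exact exists_index b m

/-- the vector of the values of the monomials in `T` -/
noncomputable def monoVec (T : Finset (σ →₀ ℕ)) (x : σ → K) : T → K := fun m => monoVal m.1 x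

theorem tensor_height (H : HeightFn K) [Fintype σ] [Fintype κ] (b : σ → κ) (e : κ → ℕ)
    (x : σ → K) (hx : ∀ k, block b x k ≠ 0) :
    H.h (fun I : ((a : Σ k, Fin (e k)) → {s // b s = a.1}) => ∏ a, x (I a)) =
      ∑ k, e k * H.h (block b x k) := by
  have h := H.prod (α := Σ k, Fin (e k)) (ι := fun a => {s // b s = a.1})
    (fun a => block b x a.1) (fun a => hx a.1)
  have h2 : ∑ a : (Σ k, Fin (e k)), H.h (block b x a.1) = ∑ k, e k * H.h (block b x k) := by
    rw [Fintype.sum_sigma]
    simp
  rw [← h2, ← h]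
  rfl

theorem h_monoVec_le (H : HeightFn K) [Fintype σ] [Fintype κ] (b : σ → κ) (e : κ →₀ ℕ)
    (T : Finset (σ →₀ ℕ)) (hT : ∀ m ∈ T, m.mapDomain b = e)
    (x : σ → K) (hx : ∀ k, block b x k ≠ 0) :
    H.h (monoVec T x) ≤ ∑ k, e k * H.h (block b x k) := by
  classical
  have hex : ∀ m : T, ∃ I : (a : Σ k, Fin (e k)) → {s // b s = a.1},
      ∀ x : σ → K, ∏ a, x (I a) = monoVal m.1 x := fun m => exists_index' b m.1 e (hT m.1 m.2)
  choose f hf using hex
  have h1 : monoVec T x =
      (fun I : ((a : Σ k, Fin (e k)) → {s // b s = a.1}) => ∏ a, x (I a)) ∘ f := by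
    funext m
    simp [monoVec, hf]
  rw [h1, ← tensor_height H b e x hx]
  exact H.comp_le f _

theorem coeff_multiTheta_eq_sum (b : σ → κ) (x : σ → K) (P : MvPolynomial σ K) (e : κ →₀ ℕ)
    (T : Finset (σ →₀ ℕ)) (hT : ∀ m ∈ P.support, m.mapDomain b = e → m ∈ T)
    (hT' : ∀ m ∈ T, m.mapDomain b = e) :
    coeff e (multiTheta b x P) = ∑ m : T, coeff m.1 P * monoVec T x m := by
  classical
  rw [coeff_multiTheta, ← Finset.sum_filter]
  have h := Finset.sum_coe_sort T (fun m => coeff m P * monoVal m x)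
  simp only [monoVec]
  rw [h]
  refine Finset.sum_subset ?_ ?_
  · intro m hm
    rw [Finset.mem_filter] at hm
    exact hT m hm.1 hm.2
  · intro m hm hm'
    have : m ∉ P.support := fun h' => hm' (Finset.mem_filter.2 ⟨h', hT' m hm⟩)
    rw [notMem_support_iff.1 this, zero_mul]

theorem eval_monomial_equivFun [Fintype κ] (d : κ → ℕ) (a : K) (c : κ → K) :
    eval c (monomial (Finsupp.equivFunOnFinite.symm d) a) = (∏ k, c k ^ d k) * a := by
  rw [eval_monomial, Finsupp.prod_fintype _ _ (by simp), mul_comm]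
  simp

end Fermat.Agent.S17.TP
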