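import Fermat.Agent.S17.Tools.Minors
import Fermat.Agent.S17.Tools.MinorsKer
import Fermat.Agent.S17.TP.Height

/-!
# S17 / TP / PL : dual Pluecker vectors (definitions only, no proofs needed)

A subspace `U ≤ K^d` of codimension `r` is `ker A`, `A : Matrix (Fin r) (Fin d) K` of full rank;
its dual Pluecker vector is `minors A : (Fin r ↪o Fin d) → K`.
-/

set_option autoImplicit false

noncomputable section

namespace Fermat.Agent.S17.TP

open Fermat.Agent.S17 Matrix

variable {R : Type} [CommRing R] {n d : ℕ}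

/-- remove the `i`-th element of an `(n+1)`-subset -/
def dropEmb (T : Fin (n + 1) ↪o Fin d) (i : Fin (n + 1)) : Fin n ↪o Fin d :=
  (Fin.succAboveOrderEmb i).trans T

/-- `kerVec` as a LINEAR function of the Pluecker vector. -/
def kerVecP (p : (Fin n ↪o Fin d) → R) (T : Fin (n + 1) ↪o Fin d) : Fin d → R :=
  fun c => ∑ i : Fin (n + 1), if T i = c then (-1) ^ (i : ℕ) * p (dropEmb T i) else 0

/-- put the row `l` on top of `A` -/
def consRow (l : Fin d → R) (A : Matrix (Fin n) (Fin d) R) : Matrix (Fin (n + 1)) (Fin d) R :=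
  Matrix.of (Fin.cons l A : Fin (n + 1) → Fin d → R)

/-- contraction of an `(n+1)`-Pluecker vector with a vector (bilinear) -/
def contr (p' : (Fin (n + 1) ↪o Fin d) → R) (x : Fin d → R) : (Fin n ↪o Fin d) → R :=
  fun S => ∑ T : Fin (n + 1) ↪o Fin d, ∑ i : Fin (n + 1),
    if dropEmb T i = S then (-1) ^ (i : ℕ) * x (T i) * p' T else 0

/-- compound matrix -/
def compound (w : ℕ) {a b : ℕ} (M : Matrix (Fin a) (Fin b) R) :
    Matrix (Fin w ↪o Fin a) (Fin w ↪o Fin b) R := fun S T => (M.submatrix S T).det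

variable {K : Type} [Field K]

/-- `A` has independent rows and kernel `U`. -/
def IsCut {r : ℕ} (A : Matrix (Fin r) (Fin d) K) (U : Submodule K (Fin d → K)) : Prop :=
  LinearIndependent K A.row ∧ LinearMap.ker A.mulVecLin = U

open Classical in
/-- the height of a subspace of `K^d` (height of its dual Pluecker vector) -/
def Hsub (H : HeightFn K) (U : Submodule K (Fin d → K)) : ℝ :=
  if h : ∃ (r : ℕ) (A : Matrix (Fin r) (Fin d) K), IsCut A U then H.h (minors h.choose_spec.choose)
  else 0

/-- span of the products `μ x y`, `x ∈ U₁`, `y ∈ U₂` -/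
def mulSpan {a b c : ℕ} (μ : (Fin a → K) →ₗ[K] (Fin b → K) →ₗ[K] (Fin c → K))
    (U₁ : Submodule K (Fin a → K)) (U₂ : Submodule K (Fin b → K)) : Submodule K (Fin c → K) :=
  Submodule.map₂ μ U₁ U₂

end Fermat.Agent.S17.TP
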