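import Fermat.Agent.S17.TP.Height
import Fermat.Agent.S17.TP.Zariski
import Fermat.Agent.S17.TP.PolyFun

/-!
# S17 / TP : 2- and 3-block user versions of TP, relative to the statements of the main lemma
(owner helper267).  `TP/Three.lean` instantiates the hypotheses `UpperStmt`, `LowerStmt`.
-/

set_option autoImplicit false

namespace Fermat.Agent.S17.TP

variable {K : Type} [Field K]

/-- the statement of `TP_upper`. -/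
def UpperStmt (H : HeightFn K) : Prop :=
  ∀ {σ κ τ : Type} [Fintype σ] [Fintype κ] [Fintype τ]
    (b : σ → κ) (d : κ → ℕ) (Φ : (σ → K) → τ → K) (_ : ∀ t, IsPolyFun (fun x => Φ x t))
    (_ : ∀ c x, Φ (blockSMul b c x) = (∏ k, c k ^ d k) • Φ x),
    ∃ C : ℝ, ∀ x, (∀ k, block b x k ≠ 0) → H.h (Φ x) ≤ ∑ k, d k * H.h (block b x k) + C

/-- the statement of `TP_lower`. -/
def LowerStmt (H : HeightFn K) : Prop :=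
  ∀ {σ κ τ : Type} [Fintype σ] [Fintype κ] [Fintype τ] (b : σ → κ) (d : κ → ℕ)
    (Φ : (σ → K) → τ → K) (_ : ∀ t, IsPolyFun (fun x => Φ x t))
    (_ : ∀ c x, Φ (blockSMul b c x) = (∏ k, c k ^ d k) • Φ x)
    (Z : Set (σ → K)) (_ : IsZClosed Z) (_ : ∀ c x, x ∈ Z → blockSMul b c x ∈ Z)
    (_ : ∀ x ∈ Z, (∀ k, block b x k ≠ 0) → Φ x ≠ 0),
    ∃ C : ℝ, ∀ x ∈ Z, (∀ k, block b x k ≠ 0) →
      ∑ k, d k * H.h (block b x k) ≤ H.h (Φ x) + C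

section Blocks

/-- a block of coordinates parametrised by an injective map. -/
theorem Three_block (H : HeightFn K) {σ κ ι : Type} [Finite σ] [Finite ι] (b : σ → κ) (k : κ)
    (f : ι → σ) (hf : Function.Injective f) (hr : ∀ s, b s = k ↔ s ∈ Set.range f) (x : σ → K) :
    H.h (block b x k) = H.h (fun i => x (f i)) ∧ (block b x k ≠ 0 ↔ (fun i => x (f i)) ≠ 0) := by
  let e : ι ≃ {s // b s = k} := Equiv.ofBijective (fun i => ⟨f i, (hr _).2 ⟨i, rfl⟩⟩)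
    ⟨fun i j hij => hf (congrArg Subtype.val hij), fun ⟨s, hs⟩ => by
      obtain ⟨i, rfl⟩ := (hr s).1 hs
      exact ⟨i, rfl⟩⟩
  have he : (block b x k) ∘ e = fun i => x (f i) := rfl
  refine ⟨by rw [← he, H.comp_equiv e], ?_⟩
  rw [← he, not_iff_not]
  constructor
  · intro h
    rw [h]
    rfl
  · intro h
    funext s
    have := congrFun h (e.symm s)
    simpa using this

variable {ι₁ ι₂ ι₃ : Type}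

/-- the block map of `ι₁ ⊕ ι₂ ⊕ ι₃`. -/
def b3 : ι₁ ⊕ ι₂ ⊕ ι₃ → Fin 3 := Sum.elim (fun _ => 0) (Sum.elim (fun _ => 1) (fun _ => 2))

theorem b3_zero (s : ι₁ ⊕ ι₂ ⊕ ι₃) : b3 s = 0 ↔ s ∈ Set.range (Sum.inl : ι₁ → ι₁ ⊕ ι₂ ⊕ ι₃) := by
  rcases s with i | j | l <;> simp [b3]

theorem b3_one (s : ι₁ ⊕ ι₂ ⊕ ι₃) :
    b3 s = 1 ↔ s ∈ Set.range (fun j : ι₂ => (Sum.inr (Sum.inl j) : ι₁ ⊕ ι₂ ⊕ ι₃)) := by
  rcases s with i | j | l <;> simp [b3]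

theorem b3_two (s : ι₁ ⊕ ι₂ ⊕ ι₃) :
    b3 s = 2 ↔ s ∈ Set.range (fun l : ι₃ => (Sum.inr (Sum.inr l) : ι₁ ⊕ ι₂ ⊕ ι₃)) := by
  rcases s with i | j | l <;> simp [b3]

theorem inj_one : Function.Injective (fun j : ι₂ => (Sum.inr (Sum.inl j) : ι₁ ⊕ ι₂ ⊕ ι₃)) :=
  fun _ _ h => Sum.inl_injective (Sum.inr_injective h)

theorem inj_two : Function.Injective (fun l : ι₃ => (Sum.inr (Sum.inr l) : ι₁ ⊕ ι₂ ⊕ ι₃)) :=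
  fun _ _ h => Sum.inr_injective (Sum.inr_injective h)

end Blocks

section Three

variable {ι₁ ι₂ ι₃ τ : Type} [Fintype ι₁] [Fintype ι₂] [Fintype ι₃] [Fintype τ]

omit [Fintype ι₁] [Fintype ι₂] [Fintype ι₃] [Fintype τ] in
theorem Three_hom (Φ : (ι₁ → K) → (ι₂ → K) → (ι₃ → K) → τ → K) (d₁ d₂ d₃ : ℕ)
    (hhom : ∀ (c₁ c₂ c₃ : K) x₁ x₂ x₃,
      Φ (c₁ • x₁) (c₂ • x₂) (c₃ • x₃) = (c₁ ^ d₁ * c₂ ^ d₂ * c₃ ^ d₃) • Φ x₁ x₂ x₃)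
    (c : Fin 3 → K) (x : ι₁ ⊕ ι₂ ⊕ ι₃ → K) :
    Φ (fun i => blockSMul b3 c x (.inl i)) (fun i => blockSMul b3 c x (.inr (.inl i)))
        (fun i => blockSMul b3 c x (.inr (.inr i))) =
      (∏ k, c k ^ (![d₁, d₂, d₃] : Fin 3 → ℕ) k) •
        Φ (fun i => x (.inl i)) (fun i => x (.inr (.inl i))) (fun i => x (.inr (.inr i))) := by
  rw [Fin.prod_univ_three]
  exact hhom (c 0) (c 1) (c 2) _ _ _

theorem TP3_upper_of (H : HeightFn K) (hU : UpperStmt H)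
    (Φ : (ι₁ → K) → (ι₂ → K) → (ι₃ → K) → τ → K)
    (hΦ : ∀ t, IsPolyFun (fun x : ι₁ ⊕ ι₂ ⊕ ι₃ → K =>
      Φ (fun i => x (.inl i)) (fun i => x (.inr (.inl i))) (fun i => x (.inr (.inr i))) t))
    (d₁ d₂ d₃ : ℕ)
    (hhom : ∀ (c₁ c₂ c₃ : K) x₁ x₂ x₃,
      Φ (c₁ • x₁) (c₂ • x₂) (c₃ • x₃) = (c₁ ^ d₁ * c₂ ^ d₂ * c₃ ^ d₃) • Φ x₁ x₂ x₃) :
    ∃ C : ℝ, ∀ x₁ x₂ x₃, x₁ ≠ 0 → x₂ ≠ 0 → x₃ ≠ 0 →
      H.h (Φ x₁ x₂ x₃) ≤ d₁ * H.h x₁ + d₂ * H.h x₂ + d₃ * H.h x₃ + C := by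
  obtain ⟨C, hC⟩ := hU (b3 : ι₁ ⊕ ι₂ ⊕ ι₃ → Fin 3) ![d₁, d₂, d₃]
    (fun x => Φ (fun i => x (.inl i)) (fun i => x (.inr (.inl i))) (fun i => x (.inr (.inr i))))
    hΦ (Three_hom Φ d₁ d₂ d₃ hhom)
  refine ⟨C, fun x₁ x₂ x₃ n₁ n₂ n₃ => ?_⟩
  have B0 := Three_block H b3 0 _ Sum.inl_injective b3_zero (glue3 x₁ x₂ x₃)
  have B1 := Three_block H b3 1 _ inj_one b3_one (glue3 x₁ x₂ x₃)
  have B2 := Three_block H b3 2 _ inj_two b3_two (glue3 x₁ x₂ x₃)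
  have h := hC (glue3 x₁ x₂ x₃) (by
    intro k
    fin_cases k
    · exact B0.2.2 n₁
    · exact B1.2.2 n₂
    · exact B2.2.2 n₃)
  rw [Fin.sum_univ_three, B0.1, B1.1, B2.1] at h
  exact h

theorem TP3_lower_of (H : HeightFn K) (hL : LowerStmt H)
    (Φ : (ι₁ → K) → (ι₂ → K) → (ι₃ → K) → τ → K)
    (hΦ : ∀ t, IsPolyFun (fun x : ι₁ ⊕ ι₂ ⊕ ι₃ → K =>
      Φ (fun i => x (.inl i)) (fun i => x (.inr (.inl i))) (fun i => x (.inr (.inr i))) t))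
    (d₁ d₂ d₃ : ℕ)
    (hhom : ∀ (c₁ c₂ c₃ : K) x₁ x₂ x₃,
      Φ (c₁ • x₁) (c₂ • x₂) (c₃ • x₃) = (c₁ ^ d₁ * c₂ ^ d₂ * c₃ ^ d₃) • Φ x₁ x₂ x₃)
    (Z₁ : Set (ι₁ → K)) (Z₂ : Set (ι₂ → K)) (Z₃ : Set (ι₃ → K))
    (h₁ : IsZClosed Z₁) (h₂ : IsZClosed Z₂) (h₃ : IsZClosed Z₃)
    (c₁ : IsCone Z₁) (c₂ : IsCone Z₂) (c₃ : IsCone Z₃)
    (hne : ∀ x₁ ∈ Z₁, ∀ x₂ ∈ Z₂, ∀ x₃ ∈ Z₃, x₁ ≠ 0 → x₂ ≠ 0 → x₃ ≠ 0 → Φ x₁ x₂ x₃ ≠ 0) :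
    ∃ C : ℝ, ∀ x₁ ∈ Z₁, ∀ x₂ ∈ Z₂, ∀ x₃ ∈ Z₃, x₁ ≠ 0 → x₂ ≠ 0 → x₃ ≠ 0 →
      d₁ * H.h x₁ + d₂ * H.h x₂ + d₃ * H.h x₃ ≤ H.h (Φ x₁ x₂ x₃) + C := by
  have hZ : IsZClosed
      (((fun (x : ι₁ ⊕ ι₂ ⊕ ι₃ → K) (i : ι₁) => x (.inl i)) ⁻¹' Z₁) ∩
        (((fun (x : ι₁ ⊕ ι₂ ⊕ ι₃ → K) (i : ι₂) => x (.inr (.inl i))) ⁻¹' Z₂) ∩
          ((fun (x : ι₁ ⊕ ι₂ ⊕ ι₃ → K) (i : ι₃) => x (.inr (.inr i))) ⁻¹' Z₃))) :=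
    (h₁.preimage fun s => IsPolyFun.coord _).inter
      ((h₂.preimage fun s => IsPolyFun.coord _).inter (h₃.preimage fun s => IsPolyFun.coord _))
  obtain ⟨C, hC⟩ := hL (b3 : ι₁ ⊕ ι₂ ⊕ ι₃ → Fin 3) ![d₁, d₂, d₃]
    (fun x => Φ (fun i => x (.inl i)) (fun i => x (.inr (.inl i))) (fun i => x (.inr (.inr i))))
    hΦ (Three_hom Φ d₁ d₂ d₃ hhom) _ hZ
    (fun c x hx => ⟨c₁ (c 0) _ hx.1, c₂ (c 1) _ hx.2.1, c₃ (c 2) _ hx.2.2⟩)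
    (fun x hx hb => hne _ hx.1 _ hx.2.1 _ hx.2.2
      ((Three_block H b3 0 _ Sum.inl_injective b3_zero x).2.1 (hb 0))
      ((Three_block H b3 1 _ inj_one b3_one x).2.1 (hb 1))
      ((Three_block H b3 2 _ inj_two b3_two x).2.1 (hb 2)))
  refine ⟨C, fun x₁ m₁ x₂ m₂ x₃ m₃ n₁ n₂ n₃ => ?_⟩
  have B0 := Three_block H b3 0 _ Sum.inl_injective b3_zero (glue3 x₁ x₂ x₃)
  have B1 := Three_block H b3 1 _ inj_one b3_one (glue3 x₁ x₂ x₃)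
  have B2 := Three_block H b3 2 _ inj_two b3_two (glue3 x₁ x₂ x₃)
  have h := hC (glue3 x₁ x₂ x₃) ⟨m₁, m₂, m₃⟩ (by
    intro k
    fin_cases k
    · exact B0.2.2 n₁
    · exact B1.2.2 n₂
    · exact B2.2.2 n₃)
  rw [Fin.sum_univ_three, B0.1, B1.1, B2.1] at h
  exact h

end Three

section Two

variable {ι₁ ι₂ τ : Type} [Fintype ι₁] [Fintype ι₂] [Fintype τ]

omit [Fintype ι₁] [Fintype ι₂] [Fintype τ] in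
theorem Three_polyFun_two (Φ : (ι₁ → K) → (ι₂ → K) → τ → K)
    (hΦ : ∀ t, IsPolyFun (fun x : ι₁ ⊕ ι₂ → K => Φ (fun i => x (.inl i)) (fun i => x (.inr i)) t))
    (t : τ) : IsPolyFun (fun x : ι₁ ⊕ ι₂ ⊕ Unit → K =>
      Φ (fun i => x (.inl i)) (fun i => x (.inr (.inl i))) t) :=
  (hΦ t).comp (g := fun (x : ι₁ ⊕ ι₂ ⊕ Unit → K) =>
      Sum.elim (fun i => x (Sum.inl i)) (fun i => x (Sum.inr (Sum.inl i))))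
    (fun s => by
      rcases s with i | j
      · exact IsPolyFun.coord _
      · exact IsPolyFun.coord _)

theorem Three_one_ne_zero : (fun _ : Unit => (1 : K)) ≠ 0 := fun h => by
  have := congrFun h ()
  simp at this

theorem TP2_upper_of (H : HeightFn K) (hU : UpperStmt H) (Φ : (ι₁ → K) → (ι₂ → K) → τ → K)
    (hΦ : ∀ t, IsPolyFun (fun x : ι₁ ⊕ ι₂ → K => Φ (fun i => x (.inl i)) (fun i => x (.inr i)) t))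
    (d₁ d₂ : ℕ)
    (hhom : ∀ (c₁ c₂ : K) x₁ x₂, Φ (c₁ • x₁) (c₂ • x₂) = (c₁ ^ d₁ * c₂ ^ d₂) • Φ x₁ x₂) :
    ∃ C : ℝ, ∀ x₁ x₂, x₁ ≠ 0 → x₂ ≠ 0 →
      H.h (Φ x₁ x₂) ≤ d₁ * H.h x₁ + d₂ * H.h x₂ + C := by
  obtain ⟨C, hC⟩ := TP3_upper_of H hU (ι₃ := Unit) (fun x₁ x₂ _ => Φ x₁ x₂)
    (Three_polyFun_two Φ hΦ) d₁ d₂ 0 (fun c₁ c₂ c₃ x₁ x₂ _ => by
      rw [pow_zero, mul_one]; exact hhom c₁ c₂ x₁ x₂)
  refine ⟨C, fun x₁ x₂ n₁ n₂ => ?_⟩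
  have h := hC x₁ x₂ (fun _ => 1) n₁ n₂ Three_one_ne_zero
  simpa using h

theorem TP2_lower_of (H : HeightFn K) (hL : LowerStmt H) (Φ : (ι₁ → K) → (ι₂ → K) → τ → K)
    (hΦ : ∀ t, IsPolyFun (fun x : ι₁ ⊕ ι₂ → K => Φ (fun i => x (.inl i)) (fun i => x (.inr i)) t))
    (d₁ d₂ : ℕ)
    (hhom : ∀ (c₁ c₂ : K) x₁ x₂, Φ (c₁ • x₁) (c₂ • x₂) = (c₁ ^ d₁ * c₂ ^ d₂) • Φ x₁ x₂)
    (Z₁ : Set (ι₁ → K)) (Z₂ : Set (ι₂ → K)) (h₁ : IsZClosed Z₁) (h₂ : IsZClosed Z₂)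
    (c₁ : IsCone Z₁) (c₂ : IsCone Z₂)
    (hne : ∀ x₁ ∈ Z₁, ∀ x₂ ∈ Z₂, x₁ ≠ 0 → x₂ ≠ 0 → Φ x₁ x₂ ≠ 0) :
    ∃ C : ℝ, ∀ x₁ ∈ Z₁, ∀ x₂ ∈ Z₂, x₁ ≠ 0 → x₂ ≠ 0 →
      d₁ * H.h x₁ + d₂ * H.h x₂ ≤ H.h (Φ x₁ x₂) + C := by
  obtain ⟨C, hC⟩ := TP3_lower_of H hL (ι₃ := Unit) (fun x₁ x₂ _ => Φ x₁ x₂)
    (Three_polyFun_two Φ hΦ) d₁ d₂ 0 (fun c₁ c₂ c₃ x₁ x₂ _ => by
      rw [pow_zero, mul_one]; exact hhom c₁ c₂ x₁ x₂) Z₁ Z₂ Set.univ h₁ h₂ IsZClosed.univ c₁ c₂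
    (fun _ _ _ => Set.mem_univ _) (fun x₁ m₁ x₂ m₂ _ _ n₁ n₂ _ => hne x₁ m₁ x₂ m₂ n₁ n₂)
  refine ⟨C, fun x₁ m₁ x₂ m₂ n₁ n₂ => ?_⟩
  have h := hC x₁ m₁ x₂ m₂ (fun _ => 1) (Set.mem_univ _) n₁ n₂ Three_one_ne_zero
  simpa using h

end Two

/-- an injective linear map changes the height by a bounded amount -/
theorem TP_linear_injective (H : HeightFn K) {ι ι' : Type} [Fintype ι] [Fintype ι']
    (A : ι' → ι → K) (hA : Function.Injective (fun (x : ι → K) (j : ι') => ∑ i, A j i * x i)) :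
    ∃ C : ℝ, ∀ x : ι → K, |H.h (fun j => ∑ i, A j i * x i) - H.h x| ≤ C := by
  classical
  let L : (ι → K) →ₗ[K] (ι' → K) := Matrix.mulVecLin (Matrix.of A)
  have hL : ∀ x, L x = fun j => ∑ i, A j i * x i := fun x => rfl
  have hker : LinearMap.ker L = ⊥ := LinearMap.ker_eq_bot.mpr hA
  obtain ⟨g, hg⟩ := LinearMap.exists_leftInverse_of_injective L hker
  obtain ⟨C₁, hC₁⟩ := H.linear A
  obtain ⟨C₂, hC₂⟩ := H.linear (fun i j => LinearMap.toMatrix' g i j)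
  refine ⟨max C₁ C₂, fun x => ?_⟩
  have h1 := hC₁ x
  have h2 := hC₂ (fun j => ∑ i, A j i * x i)
  have h3 : (fun i => ∑ j, LinearMap.toMatrix' g i j * (fun j => ∑ i, A j i * x i) j) = x := by
    have h4 : g (L x) = x := LinearMap.congr_fun hg x
    conv_rhs => rw [← h4, ← LinearMap.toMatrix'_mulVec g (L x)]
    rfl
  rw [h3] at h2
  rw [abs_le]
  constructor
  · have := le_max_right C₁ C₂
    linarith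
  · have := le_max_left C₁ C₂
    linarith

end Fermat.Agent.S17.TP
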